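import Fermat.Agent.BadRed.SeriesCalc
import Fermat.Agent.BadRed.SeriesLattice
import Fermat.Agent.BadRed.Cusps

/-!
# Bounded series with finitely generated coefficient fields

Such series (and vectors of them) have primitive multiples; this is what makes the lattices of
the toric construction behave.
-/

set_option autoImplicit false

noncomputable section

open AlgebraicCurve HahnSeries

namespace FLTA.BadRed

variable {K : Type*} [Field K] {A : ValuationSubring K} {k : Type*} [Field k] {π : A →+* k}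

/-- Some non-zero multiple is integral. -/
def BddSeries (A : ValuationSubring K) (y : LaurentSeries K) : Prop :=
  ∃ c : K, c ≠ 0 ∧ IntSeries A (c • y)

/-- The coefficients lie in a finitely generated subfield. -/
def FgSeries (y : LaurentSeries K) : Prop :=
  ∃ s : Finset K, ∀ i : ℤ, y.coeff i ∈ Subfield.closure (s : Set K)

namespace BddSeries

theorem of_int {y : LaurentSeries K} (h : IntSeries A y) : BddSeries A y :=
  ⟨1, one_ne_zero, by rwa [one_smul]⟩

theorem smul {y : LaurentSeries K} (h : BddSeries A y) (a : K) : BddSeries A (a • y) := by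
  obtain ⟨c, hc, hy⟩ := h
  rcases eq_or_ne a 0 with rfl | ha
  · exact of_int (by simpa using IntSeries.zero)
  · exact ⟨c / a, div_ne_zero hc ha, by rwa [smul_smul, div_mul_cancel₀ _ ha]⟩

theorem mul {y z : LaurentSeries K} (hy : BddSeries A y) (hz : BddSeries A z) :
    BddSeries A (y * z) := by
  obtain ⟨c, hc, hy⟩ := hy
  obtain ⟨d, hd, hz⟩ := hz
  refine ⟨c * d, mul_ne_zero hc hd, ?_⟩
  have h : (c * d) • (y * z) = (c • y) * (d • z) := by
    simp only [← C_mul_eq_smul, map_mul]; ring
  rw [h]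
  exact hy.mul hz

/-- Two bounded series have a common integral multiple. -/
theorem exists_common {y z : LaurentSeries K} (hy : BddSeries A y) (hz : BddSeries A z) :
    ∃ c : K, c ≠ 0 ∧ IntSeries A (c • y) ∧ IntSeries A (c • z) := by
  obtain ⟨c, hc, hy⟩ := hy
  obtain ⟨d, hd, hz⟩ := hz
  rcases A.mem_or_inv_mem (c / d) with h | h
  · refine ⟨c, hc, hy, ?_⟩
    have := hz.smul h
    rwa [smul_smul, div_mul_cancel₀ _ hd] at this
  · refine ⟨d, hd, ?_, hz⟩
    rw [inv_div] at h
    have := hy.smul h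
    rwa [smul_smul, div_mul_cancel₀ _ hc] at this

theorem add {y z : LaurentSeries K} (hy : BddSeries A y) (hz : BddSeries A z) :
    BddSeries A (y + z) := by
  obtain ⟨c, hc, h1, h2⟩ := hy.exists_common hz
  exact ⟨c, hc, by rw [smul_add]; exact h1.add h2⟩

end BddSeries

theorem mem_coeff_closure_mul {L : Subfield K} {y z : LaurentSeries K}
    (hy : ∀ i, y.coeff i ∈ L) (hz : ∀ i, z.coeff i ∈ L) (i : ℤ) : (y * z).coeff i ∈ L := by
  rw [HahnSeries.coeff_mul]
  exact sum_mem fun p _ => mul_mem (hy _) (hz _)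

namespace FgSeries

theorem one : FgSeries (1 : LaurentSeries K) :=
  ⟨∅, fun i => by
    rw [HahnSeries.coeff_one]
    split_ifs
    · exact one_mem _
    · exact zero_mem _⟩

theorem mul {y z : LaurentSeries K} (hy : FgSeries y) (hz : FgSeries z) : FgSeries (y * z) := by
  classical
  obtain ⟨s, hs⟩ := hy
  obtain ⟨t, ht⟩ := hz
  exact ⟨s ∪ t, mem_coeff_closure_mul
    (fun i => Subfield.closure_mono (by simp) (hs i))
    (fun i => Subfield.closure_mono (by simp) (ht i))⟩

theorem add {y z : LaurentSeries K} (hy : FgSeries y) (hz : FgSeries z) : FgSeries (y + z) := by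
  classical
  obtain ⟨s, hs⟩ := hy
  obtain ⟨t, ht⟩ := hz
  exact ⟨s ∪ t, fun i => by
    rw [HahnSeries.coeff_add]
    exact add_mem (Subfield.closure_mono (by simp) (hs i))
      (Subfield.closure_mono (by simp) (ht i))⟩

theorem smul {y : LaurentSeries K} (hy : FgSeries y) (a : K) : FgSeries (a • y) := by
  classical
  obtain ⟨s, hs⟩ := hy
  exact ⟨insert a s, fun i => by
    rw [HahnSeries.coeff_smul, smul_eq_mul]
    exact mul_mem (Subfield.subset_closure (by simp))
      (Subfield.closure_mono (by simp) (hs i))⟩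

end FgSeries

/-- A non-zero vector of bounded series over finitely generated fields has a primitive multiple. -/
theorem exists_primitive_multiple
    (hdisc : ∀ s : Finset K, IsDiscreteOn A (Subfield.closure (s : Set K)))
    {ι : Type*} [Fintype ι] {y : ι → LaurentSeries K} (hy : y ≠ 0)
    (hbd : ∀ i, BddSeries A (y i)) (hfg : ∀ i, FgSeries (y i)) :
    ∃ c : K, c ≠ 0 ∧ (∀ i, IntSeries A (c • y i)) ∧ ∃ i, redSeries A π (c • y i) ≠ 0 := by
  classical
  choose s hs using hfg
  obtain ⟨i0, hi0⟩ := Function.ne_iff.mp hy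
  obtain ⟨d0, hd0⟩ : ∃ d, (y i0).coeff d ≠ 0 := by
    by_contra h
    push Not at h
    exact hi0 (HahnSeries.ext (funext h))
  -- a common bound
  have hbound : ∀ t : Finset ι, ∃ b : K, b ≠ 0 ∧ ∀ i ∈ t, IntSeries A (b • y i) := by
    intro t
    induction t using Finset.induction_on with
    | empty => exact ⟨1, one_ne_zero, fun i hi => absurd hi (Finset.notMem_empty i)⟩
    | insert j t hj ih =>
      obtain ⟨b, hb, hbt⟩ := ih
      obtain ⟨c, hc, hcj⟩ := hbd j
      rcases A.mem_or_inv_mem (c / b) with h | h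
      · refine ⟨c, hc, fun i hi => ?_⟩
        rcases Finset.mem_insert.mp hi with rfl | hi
        · exact hcj
        · have := (hbt i hi).smul h
          rwa [smul_smul, div_mul_cancel₀ _ hb] at this
      · rw [inv_div] at h
        refine ⟨b, hb, fun i hi => ?_⟩
        rcases Finset.mem_insert.mp hi with rfl | hi
        · have := hcj.smul h
          rwa [smul_smul, div_mul_cancel₀ _ hc] at this
        · exact hbt i hi
  obtain ⟨b, hb, hball⟩ := hbound Finset.univ
  obtain ⟨x₀, ⟨⟨i1, d1⟩, rfl⟩, hx0, hmax⟩ := hdisc (Finset.univ.biUnion s)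
    (Set.range fun p : ι × ℤ => (y p.1).coeff p.2)
    (by rintro _ ⟨p, rfl⟩
        exact Subfield.closure_mono
          (Finset.coe_subset.mpr (Finset.subset_biUnion_of_mem s (Finset.mem_univ p.1))) (hs p.1 p.2))
    ⟨_, ⟨(i0, d0), rfl⟩, hd0⟩
    ⟨b⁻¹, inv_ne_zero hb, by
      rintro _ ⟨p, rfl⟩
      rw [div_inv_eq_mul, mul_comm]
      exact hball p.1 (Finset.mem_univ _) p.2⟩
  refine ⟨((y i1).coeff d1)⁻¹, inv_ne_zero hx0, fun i d => ?_, i1, fun h => ?_⟩
  · rw [HahnSeries.coeff_smul, smul_eq_mul, ← div_eq_inv_mul]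
    exact hmax _ ⟨(i, d), rfl⟩
  · have h1 := congrArg (fun z => HahnSeries.coeff z d1) h
    simp only [redSeries_coeff, HahnSeries.coeff_smul, smul_eq_mul, inv_mul_cancel₀ hx0,
      HahnSeries.coeff_zero] at h1
    rw [show (1 : K) = ((1 : A) : K) from rfl, redCoeff_coe, map_one] at h1
    exact one_ne_zero h1

theorem exists_primitive_multiple_one
    (hdisc : ∀ s : Finset K, IsDiscreteOn A (Subfield.closure (s : Set K)))
    {y : LaurentSeries K} (hy : y ≠ 0) (hbd : BddSeries A y) (hfg : FgSeries y) :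
    ∃ c : K, c ≠ 0 ∧ IntSeries A (c • y) ∧ redSeries A π (c • y) ≠ 0 := by
  obtain ⟨c, hc, h1, _, h2⟩ := exists_primitive_multiple (π := π) hdisc (ι := Fin 1)
    (y := fun _ => y) (fun h => hy (congrFun h 0)) (fun _ => hbd) (fun _ => hfg)
  exact ⟨c, hc, h1 0, h2⟩

theorem redSeries_ne_zero_imp_ne_zero {y : LaurentSeries K} (h : redSeries A π y ≠ 0) : y ≠ 0 :=
  fun h0 => h (by rw [h0, redSeries_zero])

/-- If `x` is primitive and `x * z` is integral then so is the bounded series `z`. -/
theorem intSeries_right_of_mul (hπ : Function.Surjective π)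
    (hdisc : ∀ s : Finset K, IsDiscreteOn A (Subfield.closure (s : Set K)))
    {x z : LaurentSeries K} (hx : IntSeries A x) (hxne : redSeries A π x ≠ 0)
    (hzb : BddSeries A z) (hzf : FgSeries z) (hxz : IntSeries A (x * z)) : IntSeries A z := by
  rcases eq_or_ne z 0 with rfl | hz
  · exact IntSeries.zero
  obtain ⟨c, hc, hcz, hne⟩ := exists_primitive_multiple_one (π := π) hdisc hz hzb hzf
  have hcinv : c⁻¹ ∈ A := by
    by_contra hci
    have hcA : c ∈ A := (A.mem_or_inv_mem c).resolve_right hci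
    apply mul_ne_zero hxne hne
    have e : x * (c • z) = c • (x * z) := by
      simp only [← C_mul_eq_smul]; ring
    rw [← redSeries_mul hx hcz, e, redSeries_smul hcA hxz,
      residue_eq_zero_of_inv_notMem hπ hcA hci, zero_smul]
  have := hcz.smul hcinv
  rwa [inv_smul_smul₀ hc] at this

/-- If a power of a bounded series is integral then so is the series. -/
theorem intSeries_of_pow (hπ : Function.Surjective π)
    (hdisc : ∀ s : Finset K, IsDiscreteOn A (Subfield.closure (s : Set K)))
    {z : LaurentSeries K} {n : ℕ} (hn : 0 < n) (hzb : BddSeries A z) (hzf : FgSeries z)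
    (h : IntSeries A (z ^ n)) : IntSeries A z := by
  rcases eq_or_ne z 0 with rfl | hz
  · exact IntSeries.zero
  obtain ⟨c, hc, hcz, hne⟩ := exists_primitive_multiple_one (π := π) hdisc hz hzb hzf
  rcases A.mem_or_inv_mem c with hcA | hcA
  · by_cases hci : c⁻¹ ∈ A
    · have := hcz.smul hci
      rwa [inv_smul_smul₀ hc] at this
    exfalso
    apply pow_ne_zero n hne
    have h0 : π (⟨c, hcA⟩ ^ n : A) = 0 := by
      rw [map_pow, residue_eq_zero_of_inv_notMem hπ hcA hci, zero_pow hn.ne']
    have e1 : (c • z) ^ n = (c ^ n) • z ^ n := by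
      simp only [← C_mul_eq_smul, mul_pow, map_pow]
    rw [← redSeries_pow hcz, e1, redSeries_smul (pow_mem hcA n) h]
    have e : (⟨c ^ n, pow_mem hcA n⟩ : A) = ⟨c, hcA⟩ ^ n := rfl
    rw [e, h0, zero_smul]
  · have := hcz.smul hcA
    rwa [inv_smul_smul₀ hc] at this

namespace BadFibre

variable {q : ℕ} [NeZero q] {F : Type*} [Field F] [Algebra K F] {F' : Type*} [Field F']
  [Algebra K F'] {Fk : Type*} [Field Fk] [Algebra k Fk] {g gF : ℕ}
  (B : BadFibre A π q F F' Fk g gF)

theorem fgSeries_e (i : Fin 2) (x : F) : FgSeries (B.e i x) := by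
  fin_cases i
  · exact B.coeff_fg x
  · exact B.coeff_fg (B.w x)

theorem bddSeries_e (i : Fin 2) {m : ℕ} {x : F} (hx : x ∈ riemannRochSpace (B.cuspDiv m)) :
    BddSeries A (B.e i x) := by
  fin_cases i
  · exact B.bdd_cusp m x hx
  · exact B.bdd_cusp m _ (B.w_mem_riemannRochSpace hx)

theorem e_ne_zero (i : Fin 2) {x : F} (hx : x ≠ 0) : B.e i x ≠ 0 :=
  (map_ne_zero (B.e i)).mpr hx

theorem smul_e (i : Fin 2) (c : K) (x : F) : c • B.e i x = B.e i (c • x) :=
  (congrFun (B.pair.map_smul c x) i).symm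

end BadFibre

end FLTA.BadRed
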