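import Fermat.Agent.BadRed.Toric.Bounded
import Fermat.Agent.BadRed.SeriesRoot

/-!
# Integral `n`-th roots of series with unit leading coefficient
-/

set_option autoImplicit false

noncomputable section

open HahnSeries

namespace FLTA.BadRed

variable {K : Type*} [Field K] [IsAlgClosed K] [CharZero K] {A : ValuationSubring K}
  {k : Type*} [Field k] {π : A →+* k}

theorem mem_of_pow_mem {x : K} {n : ℕ} (hn : 0 < n) (h : x ^ n ∈ A) : x ∈ A := by
  have hint : IsIntegral A x :=
    ⟨Polynomial.X ^ n - Polynomial.C (⟨x ^ n, h⟩ : A), Polynomial.monic_X_pow_sub_C _ hn.ne', by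
      simp⟩
  obtain ⟨y, hy⟩ := IsIntegrallyClosed.isIntegral_iff.mp hint
  exact hy ▸ y.2

/-- `n`-th roots of unity of the residue field lift. -/
theorem exists_rootOfUnity_lift {n : ℕ} (hn : 0 < n) {μ : k} (hμ : μ ^ n = 1) :
    ∃ ζ : A, ζ ^ n = 1 ∧ π ζ = μ := by
  classical
  haveI : NeZero (n : K) := ⟨Nat.cast_ne_zero.mpr hn.ne'⟩
  obtain ⟨z, hz⟩ := HasEnoughRootsOfUnity.exists_primitiveRoot K n
  have hzA : z ∈ A := mem_of_pow_mem hn (by rw [hz.pow_eq_one]; exact A.one_mem)
  have hz' : IsPrimitiveRoot (⟨z, hzA⟩ : A) n :=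
    IsPrimitiveRoot.of_map_of_injective (f := A.subtype) hz Subtype.val_injective
  have h := congrArg (Polynomial.eval₂ π μ) (Polynomial.X_pow_sub_one_eq_prod hn hz')
  rw [Polynomial.eval₂_sub, Polynomial.eval₂_X_pow, Polynomial.eval₂_one, hμ, sub_self,
    Polynomial.eval₂_finsetProd, eq_comm, Finset.prod_eq_zero_iff] at h
  obtain ⟨ζ, hζ, h0⟩ := h
  refine ⟨ζ, (Polynomial.mem_nthRootsFinset hn 1).mp hζ, ?_⟩
  rw [Polynomial.eval₂_sub, Polynomial.eval₂_X, Polynomial.eval₂_C, sub_eq_zero] at h0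
  exact h0.symm

theorem coeff_redSeries_of_int {y : LaurentSeries K} (hy : IntSeries A y) (i : ℤ) :
    (redSeries A π y).coeff i = π ⟨y.coeff i, hy i⟩ := by
  rw [redSeries_coeff, redCoeff, dif_pos (hy i)]

/-- An integral series of order `n m` with reduction `r ^ n`, `r` of order `m`, has an integral
`n`-th root with reduction `r` and integral inverse. -/
theorem exists_series_root [IsAlgClosed k] (hπ : Function.Surjective π) {n : ℕ}
    (hn : (n : k) ≠ 0) {s : LaurentSeries K} (hs : IntSeries A s) (hfg : FgSeries s) {m : ℤ}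
    (hlow : ∀ i : ℤ, i < (n : ℤ) * m → s.coeff i = 0) {r : LaurentSeries k} (hr0 : r ≠ 0)
    (hrord : r.order = m) (hr : redSeries A π s = r ^ n) :
    ∃ U V : LaurentSeries K, IntSeries A U ∧ IntSeries A V ∧ FgSeries U ∧ FgSeries V ∧
      U * V = 1 ∧ U ^ n = s ∧ redSeries A π U = r := by
  classical
  have hn0 : 0 < n := Nat.pos_of_ne_zero fun h => hn (by rw [h, Nat.cast_zero])
  -- leading coefficients
  have hlead : (r ^ n).coeff ((n : ℤ) * m) = r.coeff m ^ n := by
    have h1 : (r ^ n).order = (n : ℤ) * m := by rw [order_pow, hrord, nsmul_eq_mul]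
    have h2 : ∀ j : ℕ, (r ^ j).leadingCoeff = r.leadingCoeff ^ j := by
      intro j
      induction j with
      | zero => simp [leadingCoeff_eq]
      | succ j ih => rw [pow_succ, pow_succ, leadingCoeff_mul, ih]
    rw [← h1, ← leadingCoeff_eq, h2, leadingCoeff_eq, hrord]
  have hrm : r.coeff m ≠ 0 := hrord ▸ (mt coeff_order_eq_zero.mp hr0)
  have ha : π ⟨s.coeff ((n : ℤ) * m), hs _⟩ = r.coeff m ^ n := by
    rw [← coeff_redSeries_of_int hs, hr, hlead]
  obtain ⟨c₁, hc₁⟩ := IsAlgClosed.exists_pow_nat_eq (s.coeff ((n : ℤ) * m)) hn0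
  have hc₁A : c₁ ∈ A := mem_of_pow_mem hn0 (hc₁ ▸ hs _)
  have hc₁π : π ⟨c₁, hc₁A⟩ ^ n = r.coeff m ^ n := by
    rw [← map_pow, ← ha]
    congr 1
    exact Subtype.ext hc₁
  have hc₁ne : π ⟨c₁, hc₁A⟩ ≠ 0 := by
    intro h
    rw [h, zero_pow hn0.ne'] at hc₁π
    exact pow_ne_zero n hrm hc₁π.symm
  obtain ⟨ζ, hζ, hζπ⟩ := exists_rootOfUnity_lift (A := A) (π := π) hn0
    (μ := r.coeff m / π ⟨c₁, hc₁A⟩) (by rw [div_pow, hc₁π, div_self (pow_ne_zero _ hrm)])
  set c : A := ζ * ⟨c₁, hc₁A⟩ with hcdef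
  have hcπ : π c = r.coeff m := by rw [hcdef, map_mul, hζπ, div_mul_cancel₀ _ hc₁ne]
  have hcn : (c : K) ^ n = s.coeff ((n : ℤ) * m) := by
    have h := congrArg (Subtype.val : A → K) hζ
    push_cast at h
    rw [hcdef]
    push_cast
    rw [mul_pow, h, one_mul, hc₁]
  -- the ring of definition
  obtain ⟨t, ht⟩ := hfg
  set L : Subfield K := Subfield.closure ((insert (c : K) t : Finset K) : Set K) with hL
  have htL : ∀ i, s.coeff i ∈ L := fun i =>
    Subfield.closure_mono (Finset.coe_subset.mpr (Finset.subset_insert _ _)) (ht i)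
  have hcL : (c : K) ∈ L := Subfield.subset_closure (by simp)
  let R : Subring K := A.toSubring ⊓ L.toSubring
  have hunitR : ∀ (x : R), π ⟨(x : K), x.2.1⟩ ≠ 0 → IsUnit x := by
    intro x hx
    obtain ⟨y, hy⟩ := isUnit_iff_exists_inv.mp (isUnit_of_residue_ne_zero hπ hx)
    have h1 : (x : K) * (y : K) = 1 := congrArg Subtype.val hy
    refine isUnit_iff_exists_inv.mpr ⟨⟨(y : K), y.2, ?_⟩, Subtype.ext h1⟩
    rw [eq_inv_of_mul_eq_one_right h1]
    exact L.inv_mem x.2.2
  have hnR : IsUnit (n : R) := hunitR _ (by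
    rw [show (⟨((n : R) : K), (n : R).2.1⟩ : A) = (n : A) from Subtype.ext (by simp), map_natCast]
    exact hn)
  let u : PowerSeries R := PowerSeries.mk fun j => ⟨s.coeff ((n : ℤ) * m + j), hs _, htL _⟩
  have hcu : PowerSeries.constantCoeff u = (⟨c, c.2, hcL⟩ : R) ^ n := by
    refine Subtype.ext ?_
    simp [u, ← PowerSeries.coeff_zero_eq_constantCoeff, hcn]
  have hcunit : IsUnit (⟨c, c.2, hcL⟩ : R) := hunitR _ (by
    show π c ≠ 0
    rw [hcπ]; exact hrm)
  obtain ⟨w, hw, hw0⟩ := exists_pow_eq_powerSeries hn0.ne' hnR u _ hcunit hcu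
  obtain ⟨wi, hwi⟩ := isUnit_iff_exists_inv.mp
    (PowerSeries.isUnit_iff_constantCoeff.mpr (hw0 ▸ hcunit) : IsUnit w)
  set toL : PowerSeries R →+* LaurentSeries K :=
    (HahnSeries.ofPowerSeries ℤ K).comp (PowerSeries.map R.subtype) with htoL
  have hint : ∀ (v : PowerSeries R) (j : ℤ),
      (single j (1 : K) * toL v).coeff j = ((PowerSeries.constantCoeff v : R) : K) := by
    intro v j
    rw [coeff_single_mul, one_mul, sub_self, show (0 : ℤ) = ((0 : ℕ) : ℤ) from rfl, htoL,
      RingHom.comp_apply, ofPowerSeries_apply_coeff, PowerSeries.coeff_map,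
      PowerSeries.coeff_zero_eq_constantCoeff]
    rfl
  have hIntFg : ∀ (v : PowerSeries R) (j : ℤ), IntSeries A (single j (1 : K) * toL v) ∧
      FgSeries (single j (1 : K) * toL v) := by
    intro v j
    have hcoef : ∀ i, (single j (1 : K) * toL v).coeff i ∈ R := by
      intro i
      rw [coeff_single_mul, one_mul, htoL, RingHom.comp_apply]
      rcases le_or_gt 0 (i - j) with h | h
      · obtain ⟨l, hl⟩ := Int.eq_ofNat_of_zero_le h
        rw [hl, ofPowerSeries_apply_coeff, PowerSeries.coeff_map]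
        exact (PowerSeries.coeff l v).2
      · rw [ModularCurve.ofPowerSeries_coeff_of_neg _ h]
        exact R.zero_mem
    exact ⟨fun i => (hcoef i).1, insert (c : K) t, fun i => (hcoef i).2⟩
  set U : LaurentSeries K := single m 1 * toL w with hU
  set V : LaurentSeries K := single (-m) 1 * toL wi with hV
  have hUV : U * V = 1 := by
    rw [hU, hV, mul_mul_mul_comm, single_mul_single, add_neg_cancel, one_mul (1 : K),
      single_zero_one, ← map_mul, hwi, map_one, mul_one]
  have hUn : U ^ n = s := by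
    rw [hU, mul_pow, single_pow, one_pow, ← map_pow, hw, nsmul_eq_mul]
    ext i
    rw [coeff_single_mul, one_mul, htoL, RingHom.comp_apply]
    rcases le_or_gt 0 (i - (n : ℤ) * m) with h | h
    · obtain ⟨l, hl⟩ := Int.eq_ofNat_of_zero_le h
      rw [hl, ofPowerSeries_apply_coeff, PowerSeries.coeff_map, PowerSeries.coeff_mk]
      show s.coeff _ = _
      congr 1
      omega
    · rw [ModularCurve.ofPowerSeries_coeff_of_neg _ h, hlow i (by omega)]
  refine ⟨U, V, (hIntFg w m).1, (hIntFg wi (-m)).1, (hIntFg w m).2, (hIntFg wi (-m)).2, hUV, hUn, ?_⟩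
  have hUi := (hIntFg w m).1
  obtain ⟨μ, -, hμ⟩ := exists_root_of_unity_mul (k := k) hn0 (a := redSeries A π U) (b := r) hr0
    (by rw [← redSeries_pow hUi, hUn, hr])
  have h1 : (redSeries A π U).coeff m = r.coeff m := by
    rw [coeff_redSeries_of_int hUi, ← hcπ]
    congr 1
    refine Subtype.ext ?_
    show (single m (1 : K) * toL w).coeff m = (c : K)
    rw [hint, hw0]
  rw [hμ, ModularCurve.algebraMap_laurentSeries_eq_single, ← C_apply, C_mul_eq_smul,
    coeff_smul, smul_eq_mul] at h1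
  rw [hμ, mul_eq_right₀ hrm |>.mp h1, map_one, one_mul]

end FLTA.BadRed
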