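import Fermat.Agent.BadRed.Toric.Char
import Fermat.Agent.BadRed.Toric.Root

/-!
# The twist character is injective up to constants (`n` prime to the residue characteristic)

If the special fibre of a toric class is untwisted, a section with reductions of exact pole order
gives `n`-th roots `U` of the reference series, hence a linear map `G ↦ Φ G` with
`(Φ G)^n = e(G^n f)`.  Adjoining the constant pair to `Φ V` does not enlarge the reduction, hence
does not enlarge the space, so `G^n f = 1` for some `G` and the class is zero.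
-/

set_option autoImplicit false

noncomputable section

open AlgebraicCurve FLTA.Curves

namespace FLTA.BadRed.BadFibre

variable {K : Type*} [Field K] [IsAlgClosed K] [CharZero K] {A : ValuationSubring K}
  {k : Type*} [Field k] [IsAlgClosed k] {π : A →+* k}
  {q : ℕ} [NeZero q] [Fact q.Prime] [CharP k q]
  {F : Type*} [Field F] [Algebra K F] {F' : Type*} [Field F'] [Algebra K F']
  {Fk : Type*} [Field Fk] [Algebra k Fk] {g gF : ℕ} {B : BadFibre A π q F F' Fk g gF}
  {n : ℕ} {S : Finset (Place k Fk)} {m₀ : ℕ} (hS : B.IsGluing S m₀)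

/-- A non-zero function in `L(m ∞)` outside `L((m-1) ∞)` has a pole of exact order `m`. -/
theorem ord_infk_eq_of_notMem {m : ℕ} {y : Fk}
    (hy : y ∈ riemannRochSpace (Finsupp.single B.infk ((m + 1 : ℕ) : ℤ)))
    (hy' : y ∉ riemannRochSpace (Finsupp.single B.infk (m : ℤ))) :
    B.infk.ord y = -((m + 1 : ℕ) : ℤ) := by
  classical
  have hy0 : y ≠ 0 := fun h => hy' (h ▸ zero_mem _)
  have h1 := (mem_riemannRochSpace_iff.mp hy B.infk).resolve_left hy0
  rw [Finsupp.single_eq_same] at h1
  by_contra hne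
  apply hy'
  rw [mem_riemannRochSpace_iff]
  intro v
  refine Or.inr ?_
  have h2 := (mem_riemannRochSpace_iff.mp hy v).resolve_left hy0
  rcases eq_or_ne B.infk v with rfl | hv
  · rw [Finsupp.single_eq_same]
    push_cast at h1 hne ⊢
    omega
  · rw [Finsupp.single_eq_of_ne hv.symm] at h2 ⊢
    exact h2

include hS in
/-- A glued pair with poles of exact order on both components. -/
theorem exists_glued_exact {m : ℕ} (hm : 2 * g + S.card + 1 ≤ m) (c : S → k) :
    ∃ y ∈ B.glued hS m c, ∀ i, y i ≠ 0 ∧ B.infk.ord (y i) = -(m : ℤ) := by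
  classical
  obtain ⟨j, rfl⟩ : ∃ j, m = j + 1 := ⟨m - 1, by omega⟩
  let Lj := riemannRochSpace (Finsupp.single B.infk (j : ℤ))
  let Lm := riemannRochSpace (Finsupp.single B.infk ((j + 1 : ℕ) : ℤ))
  have hle : Lj ≤ Lm := riemannRochSpace_mono
    (Finsupp.single_le_single.mpr (by exact_mod_cast Nat.le_succ j))
  have := B.rrk.finiteDimensional (Finsupp.single B.infk (j : ℤ))
  have := B.rrk.finiteDimensional (Finsupp.single B.infk ((j + 1 : ℕ) : ℤ))
  have h1 := finrank_riemannRochSpace_single B.rrk (P := B.infk) (m := j) (by omega)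
  have h2 := finrank_riemannRochSpace_single B.rrk (P := B.infk) (m := j + 1) (by omega)
  obtain ⟨b, hb, hb'⟩ : ∃ b ∈ Lm, b ∉ Lj := by
    by_contra h
    push Not at h
    have h3 : Module.finrank k (riemannRochSpace (Finsupp.single B.infk ((j + 1 : ℕ) : ℤ))) ≤
        Module.finrank k (riemannRochSpace (Finsupp.single B.infk (j : ℤ))) :=
      Submodule.finrank_mono h
    omega
  obtain ⟨δ, hδ⟩ := B.ev₀_surjective hS (m := j) (by omega) (fun Q =>
    c Q * placeVal (B.frobq • (Q : Place k Fk)) b - placeVal (Q : Place k Fk) b)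
  have hsum : b + (δ : Fk) ∈ Lm := add_mem hb (hle δ.2)
  have hsum' : b + (δ : Fk) ∉ Lj := fun h => hb' (by simpa using sub_mem h δ.2)
  refine ⟨![b + (δ : Fk), b], (B.mem_glued hS).mpr ⟨Fin.forall_fin_two.mpr ⟨hsum, hb⟩, fun Q => ?_⟩,
    Fin.forall_fin_two.mpr ⟨⟨fun h => hsum' ((show b + (δ : Fk) = 0 from h) ▸ zero_mem _),
      ord_infk_eq_of_notMem hsum hsum'⟩,
      ⟨fun h => hb' ((show b = 0 from h) ▸ zero_mem _), ord_infk_eq_of_notMem hb hb'⟩⟩⟩
  show placeVal (Q : Place k Fk) (b + (δ : Fk)) = c Q * placeVal (B.frobq • (Q : Place k Fk)) b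
  rw [placeVal_add (B.rrk.deg_eq_one _) (mem_of_mem_single hb (B.pts_ne hS Q).1)
    (mem_of_mem_single (hle δ.2) (B.pts_ne hS Q).1)]
  have := congrFun hδ Q
  rw [ev₀_apply] at this
  rw [this]
  ring

variable {D : Divisor K F} {f : F} {m : ℕ}

include hS in
/-- A class with untwisted special fibre has new twist data based at a section with poles of
exact order, untwisted. -/
theorem exists_exact_data (hn : 0 < n) (hf : KummerFn n D f) (hD : Divisor.degree D = 0)
    (hm : Big S m₀ g gF m) (d : B.TwistData n D f m) {c : k} (hc : c ^ n = 1)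
    (hd : d.Ysp = B.glued hS m (fun _ => c)) :
    ∃ d' : B.TwistData n D f m, d'.Ysp = B.glued hS m 1 ∧ (∀ i, d'.γ i = 1) ∧
      ∀ i, B.infk.ord (d'.ρ i) = -(m : ℤ) := by
  obtain ⟨y, hy, hyord⟩ := exists_glued_exact hS (by have := hm.eval; omega) (fun _ => c)
  obtain ⟨G, hG, hGy⟩ := (hd ▸ hy : y ∈ d.Ysp)
  have hG0 : G ≠ 0 := by
    rintro rfl
    have h := (hGy 0).2
    rw [show d.tw 0 0 = 0 from congrFun d.twLin.map_zero 0, redSeries_zero, eq_comm,
      map_eq_zero] at h
    exact mul_ne_zero (hyord 0).1 (pow_ne_zero _ (d.ρ_ne 0)) h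
  have hc0 : c ≠ 0 := fun h => by rw [h, zero_pow hn.ne'] at hc; exact zero_ne_one hc
  have hcF : algebraMap k Fk c ≠ 0 := (map_ne_zero _).mpr hc0
  let μ : Fin 2 → Fk := ![1, algebraMap k Fk c]
  have hμn : ∀ i, μ i ^ n = 1 := Fin.forall_fin_two.mpr
    ⟨one_pow n, by show algebraMap k Fk c ^ n = 1; rw [← map_pow, hc, map_one]⟩
  have hμ0 : ∀ i, μ i ≠ 0 := fun i h => by
    have := hμn i
    rw [h, zero_pow hn.ne'] at this
    exact zero_ne_one this
  obtain ⟨hint, hred⟩ := d.isY_pow hn hf hG hGy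
  let d' : B.TwistData n D f m :=
    { G₀ := G
      mem := hG
      G₀_ne := hG0
      γ := fun _ => 1
      γ_ne := fun _ => one_ne_zero
      ρ := fun i => μ i * y i
      ρ_ne := fun i => mul_ne_zero (hμ0 i) (hyord i).1
      int := fun i => by rw [one_pow, one_smul]; exact hint i
      red := fun i => by rw [one_pow, one_smul, mul_pow, hμn, one_mul]; exact (hred i).symm }
  have hconv : ∀ {H : F} {z : Fin 2 → Fk}, H ∈ riemannRochSpace (D + B.cuspDiv m) → d.IsY H z →
      d'.IsY H (fun i => μ i * z i) := by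
    intro H z hH hz i
    have hid : (d.γ i ^ n • B.e i (d.G₀ ^ n * f)) ^ (n - 1) * d'.tw H i =
        d.tw H i * d.tw G i ^ (n - 1) := by
      show (d.γ i ^ n • B.e i (d.G₀ ^ n * f)) ^ (n - 1) *
        ((1 : K) ^ (n - 1) • B.e i (H * (G ^ (n - 1) * f))) = _
      obtain ⟨j, rfl⟩ : ∃ j, n = j + 1 := ⟨n - 1, by omega⟩
      simp only [TwistData.tw, Nat.add_sub_cancel, ← HahnSeries.C_mul_eq_smul, map_mul, map_pow,
        map_one, one_pow]
      ring
    have hint' : IntSeries A (d'.tw H i) := by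
      refine intSeries_right_of_mul (π := π) B.R.π_surjective B.discrete ((d.int i).pow (n - 1)) ?_
        (d'.tw_bdd hn hf hH i) (d'.tw_fg H i) ?_
      · rw [redSeries_pow (d.int i)]
        exact pow_ne_zero _ (d.red_ne i)
      · rw [hid]
        exact (hz i).1.mul ((hGy i).1.pow _)
    refine ⟨hint', ?_⟩
    have h := congrArg (redSeries A π) hid
    rw [redSeries_mul ((d.int i).pow _) hint', redSeries_pow (d.int i), d.red,
      redSeries_mul (hz i).1 ((hGy i).1.pow _), redSeries_pow (hGy i).1, (hz i).2, (hGy i).2,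
      ← map_pow, ← map_pow, ← map_mul] at h
    have e : (d.ρ i ^ n) ^ (n - 1) * (μ i * z i * (μ i * y i) ^ (n - 1)) =
        z i * d.ρ i ^ (n - 1) * (y i * d.ρ i ^ (n - 1)) ^ (n - 1) := by
      have h1 : μ i * μ i ^ (n - 1) = 1 := by
        rw [← pow_succ', Nat.sub_add_cancel hn, hμn]
      have h2 : (d.ρ i ^ n) ^ (n - 1) = d.ρ i ^ (n - 1) * (d.ρ i ^ (n - 1)) ^ (n - 1) := by
        rw [← pow_succ', Nat.sub_add_cancel hn, ← pow_mul, ← pow_mul, mul_comm]
      rw [h2, mul_pow, mul_pow]
      linear_combination (d.ρ i ^ (n - 1) * (d.ρ i ^ (n - 1)) ^ (n - 1) * z i * y i ^ (n - 1)) * h1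
    show redSeries A π (d'.tw H i) = B.exk (μ i * z i * (μ i * y i) ^ (n - 1))
    refine mul_left_cancel₀ ((map_ne_zero B.exk).mpr
      (pow_ne_zero (n - 1) (pow_ne_zero n (d.ρ_ne i)))) (h.trans ?_)
    rw [← e, map_mul]
  obtain ⟨ζ', -, hd'⟩ := d'.exists_twist hS hn hf hD hm
  refine ⟨d', ?_, fun i => rfl, fun i => ?_⟩
  · have hle : B.glued hS m 1 ≤ d'.Ysp := by
      intro z hz
      rw [mem_glued] at hz
      have hz0 : (![z 0, algebraMap k Fk c⁻¹ * z 1] : Fin 2 → Fk) ∈ d.Ysp := by
        rw [hd, mem_glued]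
        refine ⟨Fin.forall_fin_two.mpr ⟨hz.1 0, ?_⟩, fun Q => ?_⟩
        · show algebraMap k Fk c⁻¹ * z 1 ∈ _
          rw [← Algebra.smul_def]
          exact Submodule.smul_mem _ _ (hz.1 1)
        · show placeVal _ (z 0) = c * placeVal _ (algebraMap k Fk c⁻¹ * z 1)
          rw [← Algebra.smul_def, placeVal_smul (B.rrk.deg_eq_one _) _
            (mem_of_mem_single (hz.1 1) (B.pts_ne hS Q).2), ← mul_assoc, mul_inv_cancel₀ hc0,
            one_mul, hz.2 Q, Pi.one_apply, one_mul]
      obtain ⟨H, hH, hHz⟩ := hz0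
      refine ⟨H, hH, ?_⟩
      have := hconv hH hHz
      convert this using 1
      funext i
      revert i
      refine Fin.forall_fin_two.mpr ⟨(one_mul _).symm, ?_⟩
      show z 1 = algebraMap k Fk c * (algebraMap k Fk c⁻¹ * z 1)
      rw [← mul_assoc, ← map_mul, mul_inv_cancel₀ hc0, map_one, one_mul]
    rw [hd']
    have hgs : glueSpace (B.ev₀ hS m) (B.ev₁ hS m) 1 ≤ glueSpace (B.ev₀ hS m) (B.ev₁ hS m) ζ' := by
      intro x hx
      obtain ⟨x', hx', he⟩ := (hd' ▸ hle ⟨x, hx, rfl⟩ : B.pairsIncl m x ∈ B.glued hS m ζ')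
      exact B.pairsIncl_injective m he ▸ hx'
    rw [eq_of_glueSpace_le (B.ev₀_surjective hS (by have := hm.eval; omega))
      (B.ev₁_surjective hS (by have := hm.eval; omega)) hgs]
  · show B.infk.ord (μ i * y i) = _
    rw [Place.ord_mul _ (hμ0 i) (hyord i).1, (hyord i).2]
    have : B.infk.ord (μ i) = 0 := by
      revert i
      exact Fin.forall_fin_two.mpr ⟨B.infk.ord_one, FLTA.Curves.ord_algebraMap B.infk c⟩
    rw [this, zero_add]

include hS in
/-- **Injectivity core.** Untwisted exact data make the Kummer function an `n`-th power. -/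
theorem exists_pow_mul_eq_one (hnk : (n : k) ≠ 0) (hf : KummerFn n D f)
    (hm : Big S m₀ g gF m) (d : B.TwistData n D f m) (hY : d.Ysp = B.glued hS m 1)
    (hγ : ∀ i, d.γ i = 1) (hord : ∀ i, B.infk.ord (d.ρ i) = -(m : ℤ)) :
    ∃ G ∈ riemannRochSpace (D + B.cuspDiv m), G ^ n * f = 1 := by
  classical
  have hn : 0 < n := Nat.pos_of_ne_zero fun h => hnk (by rw [h, Nat.cast_zero])
  have hq2 : 2 ≤ q := Nat.Prime.two_le Fact.out
  -- orders of the series
  have hlow : ∀ {l : ℕ} {x : F}, x ∈ riemannRochSpace (B.cuspDiv l) →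
      ∀ (i : Fin 2) (j : ℤ), j < -(l : ℤ) → (B.e i x).coeff j = 0 := by
    intro l x hx i j hj
    rcases eq_or_ne x 0 with rfl | hx0
    · simp
    refine HahnSeries.coeff_eq_zero_of_lt_order ?_
    have h1 := (mem_riemannRochSpace_iff.mp hx (B.P i)).resolve_left hx0
    rw [B.cuspDiv_apply hq2, B.ord_P i hx0] at h1
    omega
  have hs : ∀ i, IntSeries A (B.e i (d.G₀ ^ n * f)) ∧
      redSeries A π (B.e i (d.G₀ ^ n * f)) = B.exk (d.ρ i) ^ n := fun i => by
    have h1 := d.int i
    have h2 := d.red i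
    rw [hγ, one_pow, one_smul] at h1 h2
    exact ⟨h1, by rw [h2, map_pow]⟩
  choose U V hU hV hUfg hVfg hUV hUn hUr using fun i => exists_series_root B.R.π_surjective hnk
    (hs i).1 (B.fgSeries_e i _) (m := -(m : ℤ))
    (fun j hj => hlow (d.pow_mul_mem hn hf d.mem) i j (by push_cast; linarith))
    ((map_ne_zero B.exk).mpr (d.ρ_ne i)) (by rw [← B.ord_infk _ (d.ρ_ne i), hord]) (hs i).2
  have hVr : ∀ i, B.exk (d.ρ i) * redSeries A π (V i) = 1 := fun i => by
    rw [← hUr, ← redSeries_mul (hU i) (hV i), hUV, redSeries_one]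
  -- the linear root
  let Φ : F →ₗ[K] (Fin 2 → LaurentSeries K) :=
    { toFun := fun G i => d.tw G i * V i ^ (n - 1)
      map_add' := fun x y => funext fun i => by
        show d.tw (x + y) i * _ = _
        rw [show d.tw (x + y) i = d.tw x i + d.tw y i from congrFun (d.twLin.map_add x y) i, add_mul]
        rfl
      map_smul' := fun c x => funext fun i => by
        show d.tw (c • x) i * _ = c • (d.tw x i * _)
        rw [show d.tw (c • x) i = c • d.tw x i from congrFun (d.twLin.map_smul c x) i]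
        simp only [← HahnSeries.C_mul_eq_smul, mul_assoc] }
  have hΦdef : ∀ G i, Φ G i = d.tw G i * V i ^ (n - 1) := fun G i => rfl
  have hΦU : ∀ G i, d.tw G i = Φ G i * U i ^ (n - 1) := fun G i => by
    rw [hΦdef, mul_assoc, ← mul_pow, mul_comm (V i), hUV, one_pow, mul_one]
  have hΦn : ∀ G i, Φ G i ^ n = B.e i (G ^ n * f) := fun G i => by
    rw [hΦdef, mul_pow, d.tw_pow hn, hγ, one_pow, one_smul, ← hUn i, ← pow_mul, ← pow_mul,
      mul_comm n (n - 1), mul_right_comm, ← mul_pow, hUV, one_pow, one_mul]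
  have hΦred : ∀ {G : F} {y : Fin 2 → Fk}, d.IsY G y → ∀ i, IntSeries A (Φ G i) ∧
      redSeries A π (Φ G i) = B.exk (y i) := fun {G y} hy i => by
    refine ⟨(hy i).1.mul ((hV i).pow _), ?_⟩
    rw [hΦdef, redSeries_mul (hy i).1 ((hV i).pow _), (hy i).2, redSeries_pow (hV i), map_mul,
      map_pow, mul_assoc, ← mul_pow, hVr, one_pow, mul_one]
  set V0 : Submodule K (Fin 2 → LaurentSeries K) :=
    (riemannRochSpace (D + B.cuspDiv m)).map Φ with hV0
  set W : Submodule K (Fin 2 → LaurentSeries K) := V0 ⊔ K ∙ (1 : Fin 2 → LaurentSeries K) with hW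
  have := B.rrF.finiteDimensional (D + B.cuspDiv m)
  have : FiniteDimensional K V0 := Module.Finite.map _ _
  have : FiniteDimensional K W := inferInstance
  have hWelt : ∀ w ∈ W, ∃ G ∈ riemannRochSpace (D + B.cuspDiv m), ∃ β : K,
      w = Φ G + β • (1 : Fin 2 → LaurentSeries K) := by
    intro w hw
    obtain ⟨v, hv, u, hu, rfl⟩ := Submodule.mem_sup.mp hw
    obtain ⟨G, hG, rfl⟩ := hv
    obtain ⟨β, rfl⟩ := Submodule.mem_span_singleton.mp hu
    exact ⟨G, hG, β, rfl⟩
  have hscal : Scalable π W := by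
    intro w hw hw0
    obtain ⟨G, hG, β, rfl⟩ := hWelt w hw
    refine exists_primitive_multiple B.discrete hw0 (fun i => ?_) (fun i => ?_)
    · exact ((d.tw_bdd hn hf hG i).mul (BddSeries.of_int ((hV i).pow _))).add
        ((BddSeries.of_int IntSeries.one).smul β)
    · refine (((d.tw_fg G i).mul ?_)).add (FgSeries.one.smul β)
      clear * - hVfg
      induction n - 1 with
      | zero => simpa using FgSeries.one
      | succ j ih => rw [pow_succ]; exact ih.mul (hVfg i)
  have hscal0 : Scalable π V0 := fun w hw => hscal w (Submodule.mem_sup_left hw)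
  have hconst : ∀ b : k, (fun _ => algebraMap k Fk b : Fin 2 → Fk) ∈ B.glued hS m 1 := by
    intro b
    rw [mem_glued]
    refine ⟨fun i => ?_, fun Q => by
      rw [placeVal_algebraMap (B.rrk.deg_eq_one _), placeVal_algebraMap (B.rrk.deg_eq_one _),
        Pi.one_apply, one_mul]⟩
    rw [mem_riemannRochSpace_iff]
    intro v
    refine Or.inr ?_
    rw [FLTA.Curves.ord_algebraMap]
    rcases eq_or_ne B.infk v with rfl | hv
    · rw [Finsupp.single_eq_same]; omega
    · rw [Finsupp.single_eq_of_ne hv.symm]; omega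
  have hsub : redSet π W ⊆ redSet π V0 := by
    rintro r ⟨w, hw, hwint, hwr⟩
    obtain ⟨G, hG, β, rfl⟩ := hWelt w hw
    suffices h : ∃ p ∈ d.Ysp, ∀ i, r i = B.exk (p i) by
      obtain ⟨p, ⟨H, hH, hHp⟩, hr⟩ := h
      exact ⟨Φ H, ⟨H, hH, rfl⟩, fun i => (hΦred hHp i).1,
        fun i => (hr i).trans (hΦred hHp i).2.symm⟩
    by_cases hβ : β ∈ A
    · have hint : ∀ i, IntSeries A (d.tw G i) := fun i => by
        rw [hΦU]
        refine IntSeries.mul ?_ ((hU i).pow _)
        have := (hwint i).sub (IntSeries.one.smul hβ)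
        simpa using this
      obtain ⟨z, hz⟩ := d.exists_isY hint
      refine ⟨z + fun _ => algebraMap k Fk (π ⟨β, hβ⟩),
        add_mem ⟨G, hG, hz⟩ (hY ▸ hconst _), fun i => ?_⟩
      rw [hwr i]
      show redSeries A π ((Φ G + β • (1 : Fin 2 → LaurentSeries K)) i) =
        B.exk (z i + algebraMap k Fk (π ⟨β, hβ⟩))
      rw [map_add, AlgHom.commutes]
      have : redSeries A π ((Φ G + β • (1 : Fin 2 → LaurentSeries K)) i) =
          redSeries A π (Φ G i) + redSeries A π (β • (1 : LaurentSeries K)) := by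
        rw [← redSeries_add (hΦred hz i).1 (IntSeries.one.smul hβ)]
        rfl
      rw [this, (hΦred hz i).2, redSeries_smul hβ IntSeries.one, redSeries_one,
        ← HahnSeries.C_mul_eq_smul, mul_one, ModularCurve.algebraMap_laurentSeries_eq_single,
        HahnSeries.C_apply]
    · have hβ0 : β ≠ 0 := fun h => hβ (h ▸ A.zero_mem)
      have hγA : β⁻¹ ∈ A := (A.mem_or_inv_mem β).resolve_left hβ
      have hγ0 : π ⟨β⁻¹, hγA⟩ = 0 :=
        residue_eq_zero_of_inv_notMem B.R.π_surjective hγA (by rwa [inv_inv])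
      set w : Fin 2 → LaurentSeries K := Φ G + β • (1 : Fin 2 → LaurentSeries K) with hwdef
      set G' : F := (-β⁻¹) • G with hG'def
      have hG' : G' ∈ riemannRochSpace (D + B.cuspDiv m) := Submodule.smul_mem _ _ hG
      have hΦG' : ∀ i, Φ G' i = 1 - β⁻¹ • w i := fun i => by
        rw [hG'def, map_smul, Pi.smul_apply, hwdef, Pi.add_apply, Pi.smul_apply, Pi.one_apply,
          smul_add, smul_smul, inv_mul_cancel₀ hβ0, one_smul, neg_smul]
        ring
      set nb : K := ((n : K) * β⁻¹)⁻¹ with hnb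
      set Z : F := nb • (1 - G' ^ n * f) with hZ
      have hone : (1 : F) ∈ riemannRochSpace (B.cuspDiv (n * m)) := by
        rw [mem_riemannRochSpace_iff]
        intro v
        refine Or.inr ?_
        rw [v.ord_one]
        rw [cuspDiv, Finsupp.add_apply, Finsupp.single_apply, Finsupp.single_apply]
        split_ifs <;> omega
      have hZmem : Z ∈ riemannRochSpace (B.cuspDiv (n * m)) :=
        Submodule.smul_mem _ _ (sub_mem hone (d.pow_mul_mem hn hf hG'))
      obtain ⟨nu, hnu⟩ := isUnit_iff_exists_inv.mp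
        (isUnit_of_residue_ne_zero B.R.π_surjective (a := (n : A)) (by rwa [map_natCast]))
      have hnuK : (n : K) * (nu : K) = 1 := by simpa using congrArg Subtype.val hnu
      have hnK : (n : K) ≠ 0 := Nat.cast_ne_zero.mpr hn.ne'
      have hbinom : ∀ (x : LaurentSeries K), IntSeries A x → ∀ j : ℕ,
          ∃ R, IntSeries A R ∧ (1 - β⁻¹ • x) ^ j = 1 - ((j : K) * β⁻¹) • x + (β⁻¹ * β⁻¹) • R := by
        intro x hx j
        induction j with
        | zero => exact ⟨0, IntSeries.zero, by simp⟩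
        | succ j ih =>
          obtain ⟨R, hR, he⟩ := ih
          refine ⟨R + (j : K) • (x * x) - β⁻¹ • (R * x),
            (hR.add ((hx.mul hx).smul (natCast_mem A j))).sub ((hR.mul hx).smul hγA), ?_⟩
          rw [pow_succ, he]
          simp only [← HahnSeries.C_mul_eq_smul, map_mul, Nat.cast_succ, map_add, map_one]
          ring
      have heZ : ∀ i, ∃ R, IntSeries A R ∧ B.e i Z = w i - (β⁻¹ * nu) • R := fun i => by
        obtain ⟨R, hR, he⟩ := hbinom (w i) (hwint i) n
        refine ⟨R, hR, ?_⟩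
        have hu : nb * ((n : K) * β⁻¹) = 1 := inv_mul_cancel₀ (mul_ne_zero hnK (inv_ne_zero hβ0))
        have hu2 : nb * (β⁻¹ * β⁻¹) = β⁻¹ * nu := by
          rw [hnb, mul_inv, inv_inv, ← eq_inv_of_mul_eq_one_right hnuK]
          field_simp
        rw [hZ, ← B.smul_e, map_sub, map_one, ← hΦn, hΦG', he, sub_add_eq_sub_sub,
          sub_sub_cancel, smul_sub, smul_smul, smul_smul, hu, hu2, one_smul]
      have hZint : IntPair A (B.pair Z) := fun i => by
        obtain ⟨R, hR, he⟩ := heZ i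
        rw [pair_apply, he]
        exact (hwint i).sub (hR.smul (A.mul_mem _ _ hγA nu.2))
      obtain ⟨p, hp⟩ := B.exists_isRed hZint
      have hpw : ∀ i, B.exk (p i) = redSeries A π (w i) := fun i => by
        obtain ⟨R, hR, he⟩ := heZ i
        rw [hp.2 i, he, sub_eq_add_neg, ← neg_smul,
          redSeries_add (hwint i) (hR.smul (A.neg_mem _ (A.mul_mem _ _ hγA nu.2))),
          redSeries_smul (A.neg_mem _ (A.mul_mem _ _ hγA nu.2)) hR]
        have : π ⟨-(β⁻¹ * nu), A.neg_mem _ (A.mul_mem _ _ hγA nu.2)⟩ = 0 := by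
          rw [show (⟨-(β⁻¹ * nu), A.neg_mem _ (A.mul_mem _ _ hγA nu.2)⟩ : A) = -(⟨β⁻¹, hγA⟩ * nu)
            from rfl, map_neg, map_mul, hγ0, zero_mul, neg_zero]
        rw [this, zero_smul, add_zero]
      obtain ⟨hp1, hp2⟩ := (hS.mem_iff _ (hm.fibre.trans (Nat.le_mul_of_pos_left _ hn)) p).mp
        ⟨Z, hZmem, hp⟩
      have hwlow : ∀ i (j : ℤ), j < -(m : ℤ) → (w i).coeff j = 0 := by
        intro i j hj
        have hΦlow : (Φ G i).coeff j = 0 := by
          rcases eq_or_ne (Φ G i) 0 with h0 | h0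
          · simp [h0]
          refine HahnSeries.coeff_eq_zero_of_lt_order ?_
          by_contra hle
          push Not at hle
          have h1 : n • (Φ G i).order < -((n * m : ℕ) : ℤ) := by
            rw [nsmul_eq_mul]
            push_cast
            have : (0 : ℤ) < n := by exact_mod_cast hn
            nlinarith
          have h2 := hlow (d.pow_mul_mem hn hf hG) i (n • (Φ G i).order) h1
          rw [← hΦn] at h2
          rw [← HahnSeries.order_pow] at h2
          exact pow_ne_zero n h0 (HahnSeries.coeff_order_eq_zero.mp h2)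
        rw [hwdef, Pi.add_apply, HahnSeries.coeff_add, hΦlow, Pi.smul_apply, Pi.one_apply,
          HahnSeries.coeff_smul, HahnSeries.coeff_one, if_neg (by omega), smul_zero, add_zero]
      refine ⟨p, hY ▸ (B.mem_glued hS).mpr ⟨fun i => ?_, fun Q => ?_⟩,
        fun i => (hwr i).trans (hpw i).symm⟩
      · rw [mem_riemannRochSpace_iff]
        intro v
        rcases eq_or_ne (p i) 0 with h0 | h0
        · exact Or.inl h0
        right
        rcases eq_or_ne B.infk v with rfl | hv
        · rw [Finsupp.single_eq_same, B.ord_infk _ h0, hpw,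
            HahnSeries.le_order_iff_forall (by rw [← hpw]; exact (map_ne_zero B.exk).mpr h0)]
          intro j hj
          rw [redSeries_coeff, hwlow i j hj, show (0 : K) = ((0 : A) : K) from rfl, redCoeff_coe,
            map_zero]
        · have h := (mem_riemannRochSpace_iff.mp (hp1 i) v).resolve_left h0
          rw [Finsupp.single_eq_of_ne hv.symm] at h ⊢
          exact h
      · rw [hp2 Q Q.2, Pi.one_apply, one_mul]
  obtain ⟨-, -, hdimW⟩ := finrank_span_redSet B.R.π_surjective W hscal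
  obtain ⟨-, hfin0, hdim0⟩ := finrank_span_redSet B.R.π_surjective V0 hscal0
  have := hfin0
  have hdim := Submodule.finrank_mono (Submodule.span_mono (R := k) hsub)
  rw [hdimW, hdim0] at hdim
  have hWV : V0 = W := Submodule.eq_of_le_of_finrank_le le_sup_left hdim
  obtain ⟨G, hG, hG1⟩ : (1 : Fin 2 → LaurentSeries K) ∈ V0 :=
    hWV ▸ Submodule.mem_sup_right (Submodule.mem_span_singleton_self _)
  refine ⟨G, hG, (map_eq_one_iff _ (B.e 0).injective).mp ?_⟩
  show B.e 0 (G ^ n * f) = 1
  rw [← hΦn, hG1, Pi.one_apply, one_pow]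

include hS in
/-- A toric class with constant twist vanishes. -/
theorem HasTwist.eq_zero (hnk : (n : k) ≠ 0) {x : Pic0 K F} {ζ : S → k}
    (h : HasTwist hS n x ζ) (hconst : ∀ Q Q' : S, ζ Q = ζ Q') : x = 0 := by
  have hn : 0 < n := Nat.pos_of_ne_zero fun h => hnk (by rw [h, Nat.cast_zero])
  obtain ⟨hζ, D, f, m, hm, hmk, hf, d, hd⟩ := h
  obtain ⟨c, hc, hζc⟩ : ∃ c : k, c ^ n = 1 ∧ ζ = fun _ => c := by
    rcases isEmpty_or_nonempty S with hE | ⟨⟨Q₀⟩⟩
    · exact ⟨1, one_pow n, funext fun Q => (hE.false Q).elim⟩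
    · exact ⟨ζ Q₀, hζ Q₀, funext fun Q => hconst Q Q₀⟩
  subst hζc
  obtain ⟨d', hY, hγ, hord⟩ := exists_exact_data hS hn hf D.2 hm d hc hd
  obtain ⟨G, -, hG⟩ := exists_pow_mul_eq_one hS hnk hf hm d' hY hγ hord
  have hG0 : G ≠ 0 := by
    rintro rfl
    rw [zero_pow hn.ne', zero_mul] at hG
    exact zero_ne_one hG
  rw [← hmk]
  refine (QuotientAddGroup.eq_zero_iff D).mpr (AddSubgroup.mem_addSubgroupOf.mpr
    ⟨G⁻¹, inv_ne_zero hG0, fun v => ?_⟩)
  have h := hf.ord_eq v
  rw [show f = (G⁻¹) ^ n by rw [inv_pow]; exact eq_inv_of_mul_eq_one_right hG,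
    FLTA.Curves.ord_pow] at h
  exact mul_left_cancel₀ (by exact_mod_cast hn.ne') h

end FLTA.BadRed.BadFibre
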