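import Fermat.Agent.BadRed.Setup
import Fermat.Agent.Curves.BasicOrd

/-!
# Values at the rational places of the reduced curve

`placeVal Q` is the residue map on functions regular at `Q`; on the space `L(m P)` it gives
surjective evaluation maps at finitely many places different from `P`.
-/

set_option autoImplicit false

noncomputable section

open AlgebraicCurve FLTA.Curves

namespace FLTA.BadRed.BadFibre

variable {k : Type*} [Field k] {Fk : Type*} [Field Fk] [Algebra k Fk] {Q : Place k Fk}

/-- A regular function has a value at a place of degree one. -/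
theorem exists_sub_residueMap_eq_zero (hQ : Q.deg = 1) {x : Fk}
    (hx : x ∈ Q.toValuationSubring) :
    ∃ c : k, residueMap Q ⟨x, hx⟩ = algebraMap k Q.ResidueField c := by
  obtain ⟨c, hc⟩ := (finrank_eq_one_iff_of_nonzero' (1 : Q.ResidueField) one_ne_zero).mp hQ
    (residueMap Q ⟨x, hx⟩)
  exact ⟨c, by rw [← hc, Algebra.smul_def, mul_one]⟩

theorem placeVal_spec (hQ : Q.deg = 1) {x : Fk} (hx : x ∈ Q.toValuationSubring) :
    residueMap Q ⟨x, hx⟩ = algebraMap k Q.ResidueField (placeVal Q x) := by
  classical
  obtain ⟨c, hc⟩ := exists_sub_residueMap_eq_zero hQ hx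
  have key : ∀ d : k, (x = algebraMap k Fk d ∨ 0 < Q.ord (x - algebraMap k Fk d)) →
      residueMap Q ⟨x, hx⟩ = algebraMap k Q.ResidueField d := by
    intro d hd
    have h : residueMap Q (⟨x, hx⟩ - algebraMap k Q.toValuationSubring d) = 0 := by
      rw [residueMap_eq_zero_iff]
      rcases hd with hd | hd
      · exact Or.inl (by simp [hd])
      · exact Or.inr (by simpa using hd)
    rw [map_sub, sub_eq_zero] at h
    exact h
  have hex : ∃ d : k, x = algebraMap k Fk d ∨ 0 < Q.ord (x - algebraMap k Fk d) := by
    refine ⟨c, ?_⟩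
    have h : residueMap Q (⟨x, hx⟩ - algebraMap k Q.toValuationSubring c) = 0 := by
      rw [map_sub, hc, sub_eq_zero]
      rfl
    rw [residueMap_eq_zero_iff] at h
    simpa [sub_eq_zero] using h
  rw [placeVal, dif_pos hex]
  exact key _ hex.choose_spec

theorem placeVal_mul (hQ : Q.deg = 1) {x y : Fk} (hx : x ∈ Q.toValuationSubring)
    (hy : y ∈ Q.toValuationSubring) :
    placeVal Q (x * y) = placeVal Q x * placeVal Q y := by
  apply (algebraMap k Q.ResidueField).injective
  rw [map_mul, ← placeVal_spec hQ (Q.toValuationSubring.mul_mem _ _ hx hy), ← placeVal_spec hQ hx,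
    ← placeVal_spec hQ hy, ← map_mul]
  rfl

theorem placeVal_add (hQ : Q.deg = 1) {x y : Fk} (hx : x ∈ Q.toValuationSubring)
    (hy : y ∈ Q.toValuationSubring) :
    placeVal Q (x + y) = placeVal Q x + placeVal Q y := by
  apply (algebraMap k Q.ResidueField).injective
  rw [map_add, ← placeVal_spec hQ (Q.toValuationSubring.add_mem _ _ hx hy), ← placeVal_spec hQ hx,
    ← placeVal_spec hQ hy, ← map_add]
  rfl

theorem placeVal_algebraMap (hQ : Q.deg = 1) (c : k) :
    placeVal Q (algebraMap k Fk c) = c := by
  apply (algebraMap k Q.ResidueField).injective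
  rw [← placeVal_spec hQ (Q.algebraMap_mem' c)]
  rfl

theorem placeVal_one (hQ : Q.deg = 1) : placeVal Q (1 : Fk) = 1 := by
  rw [← map_one (algebraMap k Fk), placeVal_algebraMap hQ]

theorem placeVal_zero (hQ : Q.deg = 1) : placeVal Q (0 : Fk) = 0 := by
  rw [← map_zero (algebraMap k Fk), placeVal_algebraMap hQ]

theorem placeVal_pow (hQ : Q.deg = 1) {x : Fk} (hx : x ∈ Q.toValuationSubring) (n : ℕ) :
    placeVal Q (x ^ n) = placeVal Q x ^ n := by
  induction n with
  | zero => simpa using placeVal_one hQ
  | succ j ih => rw [pow_succ, pow_succ, placeVal_mul hQ (pow_mem hx j) hx, ih]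

theorem placeVal_smul (hQ : Q.deg = 1) (c : k) {x : Fk} (hx : x ∈ Q.toValuationSubring) :
    placeVal Q (c • x) = c * placeVal Q x := by
  rw [Algebra.smul_def, placeVal_mul hQ (Q.algebraMap_mem' c) hx, placeVal_algebraMap hQ]

theorem placeVal_eq_zero_iff (hQ : Q.deg = 1) {x : Fk} (hx : x ∈ Q.toValuationSubring) :
    placeVal Q x = 0 ↔ x = 0 ∨ 0 < Q.ord x := by
  rw [← map_eq_zero_iff _ (algebraMap k Q.ResidueField).injective, ← placeVal_spec hQ hx,
    residueMap_eq_zero_iff]

/-- Functions in `L(m P)` are regular away from `P`. -/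
theorem mem_of_mem_single {P : Place k Fk} {m : ℤ} {x : Fk}
    (hx : x ∈ riemannRochSpace (Finsupp.single P m)) (h : Q ≠ P) :
    x ∈ Q.toValuationSubring := by
  rw [mem_iff_adicValuation_le_one]
  refine (hx Q).trans ?_
  rw [Finsupp.single_eq_of_ne h, WithZero.exp_zero]

section Eval

variable {g : ℕ} {P : Place k Fk} (rr : PlaceRed.RRCurve k Fk g) {ι : Type*} (pts : ι → Place k Fk)
  (hne : ∀ i, pts i ≠ P)

/-- Evaluation at finitely many places on `L(m P)`. -/
def evalMap (m : ℕ) : riemannRochSpace (Finsupp.single P (m : ℤ)) →ₗ[k] (ι → k) where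
  toFun x i := placeVal (pts i) (x : Fk)
  map_add' x y := funext fun i =>
    placeVal_add (rr.deg_eq_one _) (mem_of_mem_single x.2 (hne i)) (mem_of_mem_single y.2 (hne i))
  map_smul' c x := funext fun i =>
    placeVal_smul (rr.deg_eq_one _) c (mem_of_mem_single x.2 (hne i))

theorem evalMap_apply (m : ℕ) (x : riemannRochSpace (Finsupp.single P (m : ℤ))) (i : ι) :
    evalMap rr pts hne m x i = placeVal (pts i) (x : Fk) := rfl

include rr in
theorem finrank_riemannRochSpace_single {m : ℕ} (hm : 2 * g ≤ m + 1) :
    (Module.finrank k (riemannRochSpace (Finsupp.single P (m : ℤ))) : ℤ) = m + 1 - g := by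
  have hdeg : Divisor.degree (Finsupp.single P (m : ℤ)) = m := by
    rw [Divisor.degree_single, rr.deg_eq_one]
    simp
  rw [rr.finrank_eq _ (by rw [hdeg]; omega), hdeg]

/-- Evaluation at distinct places is surjective on `L(m P)` for `m` large. -/
theorem evalMap_surjective [Fintype ι] (hinj : Function.Injective pts) {m : ℕ}
    (hm : 2 * g + Fintype.card ι ≤ m + 1) : Function.Surjective (evalMap rr pts hne m) := by
  classical
  have := rr.finiteDimensional (Finsupp.single P (m : ℤ))
  set E : Divisor k Fk := Finsupp.single P (m : ℤ) - ∑ i, Finsupp.single (pts i) 1 with hE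
  have := rr.finiteDimensional E
  have hdeg : Divisor.degree E = (m : ℤ) - Fintype.card ι := by
    rw [hE, map_sub, map_sum, Divisor.degree_single, rr.deg_eq_one]
    simp [Divisor.degree_single, rr.deg_eq_one]
  have hEfin := rr.finrank_eq E (by rw [hdeg]; omega)
  rw [hdeg] at hEfin
  have hker : (LinearMap.ker (evalMap rr pts hne m)).map (Submodule.subtype _) ≤
      riemannRochSpace E := by
    rintro _ ⟨x, hx, rfl⟩
    rw [mem_riemannRochSpace_iff]
    intro v
    rcases eq_or_ne (x : Fk) 0 with h0 | h0
    · exact Or.inl h0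
    right
    have hxv := (mem_riemannRochSpace_iff.mp x.2 v).resolve_left h0
    by_cases hv : ∃ i, pts i = v
    · obtain ⟨i, rfl⟩ := hv
      have hval : placeVal (pts i) (x : Fk) = 0 := congrFun (LinearMap.mem_ker.mp hx) i
      rw [placeVal_eq_zero_iff (rr.deg_eq_one _) (mem_of_mem_single x.2 (hne i))] at hval
      have hpos := hval.resolve_left h0
      have hsum : (∑ j, Finsupp.single (pts j) (1 : ℤ)) (pts i) = 1 := by
        rw [Finsupp.finsetSum_apply,
          Finset.sum_eq_single i (fun j _ hj => Finsupp.single_eq_of_ne (fun h => hj (hinj h).symm))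
            (fun h => absurd (Finset.mem_univ i) h), Finsupp.single_eq_same]
      rw [hE, Finsupp.sub_apply, hsum, Finsupp.single_eq_of_ne (hne i)]
      show -(0 - 1 : ℤ) ≤ (pts i).ord (x : Fk)
      omega
    · have hsum : (∑ j, Finsupp.single (pts j) (1 : ℤ)) v = 0 := by
        rw [Finsupp.finsetSum_apply]
        exact Finset.sum_eq_zero fun j _ => Finsupp.single_eq_of_ne fun h => hv ⟨j, h.symm⟩
      rw [hE, Finsupp.sub_apply, hsum, sub_zero]
      exact hxv
  have h1 := Submodule.finrank_mono hker
  rw [Submodule.finrank_map_subtype_eq] at h1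
  have h2 := (evalMap rr pts hne m).finrank_range_add_finrank_ker
  have h3 := finrank_riemannRochSpace_single rr (P := P) (m := m) (by omega)
  have h4 : Module.finrank k (LinearMap.range (evalMap rr pts hne m)) ≤ Fintype.card ι := by
    simpa using Submodule.finrank_le (LinearMap.range (evalMap rr pts hne m))
  refine LinearMap.range_eq_top.mp (Submodule.eq_top_of_finrank_eq ?_)
  rw [Module.finrank_pi]
  omega

end Eval

end FLTA.BadRed.BadFibre
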