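import Fermat.Agent.BadRed.Toric.Galois

/-!
# The involution on twists

The glued points are stable under `frobq`, and the involution `w` exchanges the two components, so
it inverts twists.  Hence Frobenius acts on toric classes as `-q w`.
-/

set_option autoImplicit false

noncomputable section

open AlgebraicCurve FLTA.Curves

namespace FLTA.BadRed.BadFibre

variable {K : Type*} [Field K] {A : ValuationSubring K}
  {k : Type*} [Field k] {π : A →+* k}
  {q : ℕ} [NeZero q]
  {F : Type*} [Field F] [Algebra K F] {F' : Type*} [Field F'] [Algebra K F']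
  {Fk : Type*} [Field Fk] [Algebra k Fk] {g gF : ℕ} {B : BadFibre A π q F F' Fk g gF}

/-- The involution exchanges the two expansions. -/
theorem e_wAut_smul (i : Fin 2) (x : F) : B.e i (B.wAut • x) = B.e i.rev x := by
  rw [wAut_smul]
  revert i
  refine Fin.forall_fin_two.mpr ⟨rfl, ?_⟩
  show B.ex (B.w (B.w x)) = B.ex x
  rw [B.w_w]

theorem swap_mem_fibreSections {m : ℕ} {p : Fin 2 → Fk} (hp : p ∈ B.fibreSections m) :
    (fun i => p i.rev) ∈ B.fibreSections m := by
  obtain ⟨G, hG, hint, hr⟩ := hp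
  refine ⟨B.wAut • G, B.w_mem_riemannRochSpace hG, fun i => ?_, fun i => ?_⟩
  · rw [pair_apply, e_wAut_smul]
    exact hint i.rev
  · rw [e_wAut_smul]
    exact hr i.rev

variable {S : Finset (Place k Fk)} {m₀ : ℕ}

/-- The glued points are stable under Frobenius. -/
theorem frobq_smul_mem (hS : B.IsGluing S m₀) {Q : Place k Fk} (hQ : Q ∈ S) :
    B.frobq • Q ∈ S := by
  classical
  by_contra hQ'
  have hne : ∀ R : ↥(insert (B.frobq • Q) S), (R : Place k Fk) ≠ B.infk := fun R h => by
    rcases Finset.mem_insert.mp R.2 with h' | h'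
    · exact hS.smul_ne Q hQ (h'.symm.trans h)
    · exact hS.infk_notMem (h ▸ h')
  obtain ⟨a, ha⟩ := evalMap_surjective B.rrk (fun R : ↥(insert (B.frobq • Q) S) => (R : Place k Fk))
    hne Subtype.val_injective (m := m₀ + 2 * g + S.card + 1)
    (by rw [Fintype.card_coe, Finset.card_insert_of_notMem hQ']; omega)
    (fun R => if (R : Place k Fk) = B.frobq • Q then 1 else 0)
  have hp : ![(a : Fk), 0] ∈ B.fibreSections (m₀ + 2 * g + S.card + 1) := by
    refine (hS.mem_iff _ (by omega) _).mpr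
      ⟨Fin.forall_fin_two.mpr ⟨a.2, zero_mem _⟩, fun R hR => ?_⟩
    have h := congrFun ha ⟨R, Finset.mem_insert_of_mem hR⟩
    rw [evalMap_apply, if_neg (fun h' : R = B.frobq • Q => hQ' (h' ▸ hR))] at h
    show placeVal R (a : Fk) = placeVal _ (0 : Fk)
    rw [h, placeVal_zero (B.rrk.deg_eq_one _)]
  have h := ((hS.mem_iff _ (by omega) _).mp (swap_mem_fibreSections hp)).2 Q hQ
  change placeVal Q (0 : Fk) = placeVal (B.frobq • Q) (a : Fk) at h
  have h' := congrFun ha ⟨B.frobq • Q, Finset.mem_insert_self _ _⟩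
  rw [evalMap_apply, if_pos rfl] at h'
  rw [placeVal_zero (B.rrk.deg_eq_one _), h'] at h
  exact zero_ne_one h

/-- The partner of a glued point. -/
def partner (hS : B.IsGluing S m₀) (Q : S) : S := ⟨B.frobq • (Q : Place k Fk), frobq_smul_mem hS Q.2⟩

theorem frobq_smul_partner (hS : B.IsGluing S m₀) (Q : S) :
    B.frobq • (partner hS Q : Place k Fk) = Q :=
  hS.frobq_sq Q Q.2

variable {n : ℕ} {D : Divisor K F} {f : F} {m : ℕ}

namespace TwistData

/-- Twist data of the image under the involution. -/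
def swap (d : B.TwistData n D f m) : B.TwistData n (B.wAut • D) (B.wAut • f) m where
  G₀ := B.wAut • d.G₀
  mem := by
    have h := smul_mem_riemannRochSpace' B.wAut d.mem
    rwa [smul_add, B.wAut_smul_cuspDiv] at h
  G₀_ne := (smul_ne_zero_iff_ne B.wAut).mpr d.G₀_ne
  γ i := d.γ i.rev
  γ_ne i := d.γ_ne _
  ρ i := d.ρ i.rev
  ρ_ne i := d.ρ_ne _
  int i := by rw [← smul_pow', ← smul_mul', e_wAut_smul]; exact d.int _
  red i := by rw [← smul_pow', ← smul_mul', e_wAut_smul]; exact d.red _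

theorem isY_swap (d : B.TwistData n D f m) {G : F} {y : Fin 2 → Fk} (h : d.IsY G y) :
    d.swap.IsY (B.wAut • G) (fun i => y i.rev) := fun i => by
  have e : d.swap.tw (B.wAut • G) i = d.tw G i.rev := by
    show d.γ i.rev ^ (n - 1) •
      B.e i (B.wAut • G * ((B.wAut • d.G₀) ^ (n - 1) * (B.wAut • f))) = _
    rw [← smul_pow', ← smul_mul', ← smul_mul', e_wAut_smul]
    rfl
  rw [e]
  exact h i.rev

end TwistData

section Twist

variable [IsAlgClosed K] [CharZero K] [IsAlgClosed k] [Fact q.Prime] [CharP k q]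
  (hS : B.IsGluing S m₀)

include hS in
/-- The involution inverts the twist at the partner. -/
theorem HasTwist.swap (hn : 0 < n) {x : Pic0 K F} {ζ : S → k} (h : HasTwist hS n x ζ) :
    HasTwist hS n (B.wAut • x) (fun Q => (ζ (partner hS Q))⁻¹) := by
  obtain ⟨hζ, D, f, m, hm, hmk, hf, d, hd⟩ := h
  refine ⟨fun Q => by rw [inv_pow, hζ, inv_one], SemilinearAut.degZeroSMulHom B.wAut D, B.wAut • f,
    m, hm, by rw [← SemilinearAut.pic0_smul_mk, hmk], hf.conj B.wAut, d.swap, ?_⟩
  obtain ⟨ζ', -, hd'⟩ :=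
    d.swap.exists_twist hS hn (hf.conj B.wAut) (SemilinearAut.degZeroSMulHom B.wAut D).2 hm
  suffices ζ' = fun Q => (ζ (partner hS Q))⁻¹ by rw [← this]; exact hd'
  obtain ⟨a, ha⟩ := B.ev₀_surjective hS (m := m) (by have := hm.eval; omega) ζ
  obtain ⟨b, hb⟩ := B.ev₁_surjective hS (m := m) (by have := hm.eval; omega) 1
  have hy : (![(a : Fk), (b : Fk)] : Fin 2 → Fk) ∈ d.Ysp := by
    rw [hd, mem_glued]
    refine ⟨Fin.forall_fin_two.mpr ⟨a.2, b.2⟩, fun Q => ?_⟩
    have h0 := congrFun ha Q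
    have h1 := congrFun hb Q
    rw [ev₀_apply] at h0
    rw [ev₁_apply] at h1
    show placeVal _ (a : Fk) = ζ Q * placeVal _ (b : Fk)
    rw [h0, h1, Pi.one_apply, mul_one]
  obtain ⟨G, hG, hGy⟩ := hy
  have hy' : (fun i : Fin 2 => (![(a : Fk), (b : Fk)] i.rev)) ∈ d.swap.Ysp := by
    refine ⟨B.wAut • G, ?_, d.isY_swap hGy⟩
    have h := smul_mem_riemannRochSpace' B.wAut hG
    rw [smul_add, B.wAut_smul_cuspDiv] at h
    exact h
  rw [hd', mem_glued] at hy'
  funext Q
  have hQ := hy'.2 Q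
  have h0 := congrFun ha (partner hS Q)
  have h1 := congrFun hb (partner hS Q)
  rw [ev₀_apply] at h0
  rw [ev₁_apply, frobq_smul_partner] at h1
  change placeVal (Q : Place k Fk) (b : Fk) =
    ζ' Q * placeVal (partner hS Q : Place k Fk) (a : Fk) at hQ
  rw [h0, h1, Pi.one_apply] at hQ
  exact eq_inv_of_mul_eq_one_left hQ.symm

include hS in
/-- A symmetry acting as Frobenius on the residue field moves the twist to the partner. -/
theorem HasTwist.conj_frob (hn : 0 < n) {x : Pic0 K F} {ζ : S → k} (h : HasTwist hS n x ζ)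
    (s : B.Sym) (hs : s.IsFrob) :
    HasTwist hS n (s.σ • x) (fun Q => ζ (partner hS Q) ^ q) := by
  have hpl : ∀ v : Place k Fk, s.σk • v = B.frobq • v :=
    place_smul_congr (B.frob_smul_fk s hs)
  have h' := h.conjPerm hS hn s (partner hS) fun Q => ⟨?_, ?_⟩
  · rwa [show (fun Q => SemilinearAut.baseAut s.σk (ζ (partner hS Q))) =
      fun Q => ζ (partner hS Q) ^ q from funext fun Q => hs _] at h'
  · rw [hpl, frobq_smul_partner]
  · rw [hpl, frobq_smul_partner]

end Twist

end FLTA.BadRed.BadFibre
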