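import Fermat.Agent.BadRed.Toric.Twist

/-!
# The twist character of toric classes

`HasTwist hS n x ζ` says that a representative of `x` has special fibre twisted by `ζ`.  Toric
classes have twists, twists multiply, and the twists of `0` are constant.
-/

set_option autoImplicit false

noncomputable section

open AlgebraicCurve FLTA.Curves

namespace FLTA.BadRed.BadFibre

variable {K : Type*} [Field K] [IsAlgClosed K] [CharZero K] {A : ValuationSubring K}
  {k : Type*} [Field k] [IsAlgClosed k] {π : A →+* k}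
  {q : ℕ} [NeZero q] [Fact q.Prime] [CharP k q]
  {F : Type*} [Field F] [Algebra K F] {F' : Type*} [Field F'] [Algebra K F']
  {Fk : Type*} [Field Fk] [Algebra k Fk] {g gF : ℕ} (B : BadFibre A π q F F' Fk g gF)
  {n : ℕ}

include B in
/-- A function with trivial divisor is constant. -/
theorem exists_eq_algebraMap_of_ord_eq_zero {u : F} (hu : u ≠ 0)
    (h : ∀ v : Place K F, v.ord u = 0) : ∃ c : K, u = algebraMap K F c := by
  classical
  have hmem : u ∈ (B.P 0).toValuationSubring := (mem_iff_ord_nonneg _ hu).mpr (h _).ge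
  obtain ⟨c, hc⟩ := exists_sub_residueMap_eq_zero (B.rrF.deg_eq_one (B.P 0)) hmem
  refine ⟨c, ?_⟩
  by_contra hne
  have hw : u - algebraMap K F c ≠ 0 := sub_ne_zero.mpr hne
  have hres : residueMap (B.P 0) (⟨u, hmem⟩ - algebraMap K (B.P 0).toValuationSubring c) = 0 := by
    rw [map_sub, hc, sub_eq_zero]
    rfl
  rw [residueMap_eq_zero_iff] at hres
  have hpos : 0 < (B.P 0).ord (u - algebraMap K F c) := by
    rcases hres with h' | h'
    · exact absurd (by simpa using h') hw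
    · simpa using h'
  obtain ⟨E, hE, hdeg⟩ := B.rrF.principal.exists_divisor _ hw
  have hnn : ∀ v, 0 ≤ E v := fun v => by
    rw [hE]
    exact ord_nonneg_of_mem v (sub_mem ((mem_iff_ord_nonneg _ hu).mpr (h v).ge) (v.algebraMap_mem' c))
  have hsum : Divisor.degree E = E.sum fun _ m => m := by
    rw [Divisor.degree, Finsupp.liftAddHom_apply]
    exact Finsupp.sum_congr fun v _ => by simp [B.rrF.deg_eq_one v]
  rw [hsum, Finsupp.sum] at hdeg
  have hle : E (B.P 0) ≤ ∑ v ∈ E.support, E v := by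
    by_cases hv : B.P 0 ∈ E.support
    · exact Finset.single_le_sum (fun v _ => hnn v) hv
    · rw [Finsupp.notMem_support_iff.mp hv]
      exact Finset.sum_nonneg fun v _ => hnn v
  rw [hE (B.P 0)] at hle
  omega

theorem exists_ne_zero_mem {D : Divisor K F} (hD : Divisor.degree D = 0) {m : ℕ} (hm : gF ≤ m) :
    ∃ G ∈ riemannRochSpace (D + B.cuspDiv m), G ≠ 0 := by
  have := B.rrF.finiteDimensional (D + B.cuspDiv m)
  refine Submodule.exists_mem_ne_zero_of_ne_bot fun h => ?_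
  have h1 := B.rrF.finrank_eq (D + B.cuspDiv m) (by rw [map_add, hD, degree_cuspDiv]; omega)
  rw [h, finrank_bot, map_add, hD, degree_cuspDiv] at h1
  omega

/-- A Kummer function reducing to `n`-th powers gives twist data. -/
theorem nonempty_twistData (hn : 0 < n) {D : Divisor K F} {f : F} (hf : KummerFn n D f)
    (hD : Divisor.degree D = 0) (hred : B.ReducesToPow n f) {m : ℕ} (hm : gF ≤ m) :
    Nonempty (B.TwistData n D f m) := by
  obtain ⟨G, hG, hG0⟩ := B.exists_ne_zero_mem hD hm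
  have key : ∀ i, ∃ (γ : K) (ρ : Fk), γ ≠ 0 ∧ ρ ≠ 0 ∧ IntSeries A (γ ^ n • B.e i (G ^ n * f)) ∧
      redSeries A π (γ ^ n • B.e i (G ^ n * f)) = B.exk (ρ ^ n) := by
    intro i
    obtain ⟨c, η, hc, hη, g₂, h₂, hg₂, hh₂, hh₂ne, heq₂, hr₂⟩ := hred i
    obtain ⟨a, r, ha, hr, g₁, h₁, hg₁, hh₁, hh₁ne, heq₁, hr₁⟩ := B.exists_hasRed_smul i hG0
    obtain ⟨γ, hγ⟩ := IsAlgClosed.exists_pow_nat_eq (a ^ n * c) hn
    have hac : a ^ n * c ≠ 0 := mul_ne_zero (pow_ne_zero _ ha) hc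
    set Z := (a ^ n * c) • B.e i (G ^ n * f) with hZ
    set y₂ := B.e i h₁ ^ n * B.e i h₂ with hy₂
    set y₁ := B.e i g₁ ^ n * B.e i g₂ with hy₁
    have hprod : Z * y₂ = y₁ := by
      rw [hZ, hy₂, hy₁, ← heq₁, ← heq₂, B.smul_e]
      simp only [← map_pow, ← map_mul, Algebra.smul_def, map_mul, map_pow]
      ring
    have hy₁red : redSeries A π y₁ = B.exk ((r * η) ^ n) * redSeries A π y₂ := by
      rw [hy₁, hy₂, redSeries_mul (hg₁.pow n) hg₂, redSeries_pow hg₁, ← hr₁, ← hr₂,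
        redSeries_mul (hh₁.pow n) hh₂, redSeries_pow hh₁]
      simp only [mul_pow, map_mul, map_pow]
      ring
    have hy₂ne : redSeries A π y₂ ≠ 0 := by
      rw [hy₂, redSeries_mul (hh₁.pow n) hh₂, redSeries_pow hh₁]
      exact mul_ne_zero (pow_ne_zero _ hh₁ne) hh₂ne
    have hy₁ne : redSeries A π y₁ ≠ 0 := by
      rw [hy₁red]
      exact mul_ne_zero ((map_ne_zero B.exk).mpr (pow_ne_zero _ (mul_ne_zero hr hη))) hy₂ne
    have hmemφ : G ^ n * f ∈ riemannRochSpace (B.cuspDiv (n * m)) := by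
      have := mul_mem_riemannRochSpace (pow_mem_riemannRochSpace hG n) hf.mem
      rwa [smul_add, natCast_smul_cuspDiv, add_neg_eq_iff_eq_add.mpr (add_comm _ _)] at this
    obtain ⟨hZi, hZr⟩ := intSeries_of_mul_eq B.R.π_surjective
      (exists_primitive_multiple_one (π := π) B.discrete
        (smul_ne_zero hac (B.e_ne_zero i (mul_ne_zero (pow_ne_zero _ hG0) hf.ne_zero)))
        ((B.bddSeries_e i hmemφ).smul _) ((B.fgSeries_e i _).smul _))
      ((hg₁.pow n).mul hg₂) ((hh₁.pow n).mul hh₂) hy₁ne hy₂ne hprod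
    refine ⟨γ, r * η, ?_, mul_ne_zero hr hη, hγ ▸ hZi, ?_⟩
    · intro h0
      rw [h0, zero_pow hn.ne'] at hγ
      exact hac hγ.symm
    · rw [hγ]
      exact mul_right_cancel₀ hy₂ne (hZr.trans hy₁red)
  choose γ ρ hγ hρ hint hr using key
  exact ⟨⟨G, hG, hG0, γ, hγ, ρ, hρ, hint, hr⟩⟩

variable {B} {S : Finset (Place k Fk)} {m₀ : ℕ} (hS : B.IsGluing S m₀)

/-- `x` has a representative whose special fibre is twisted by `ζ`. -/
def HasTwist (n : ℕ) (x : Pic0 K F) (ζ : S → k) : Prop :=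
  (∀ Q, ζ Q ^ n = 1) ∧ ∃ (D : Divisor.degZero (K := K) (F := F)) (f : F) (m : ℕ),
    Big S m₀ g gF m ∧ Pic0.mk D = x ∧ KummerFn n (D : Divisor K F) f ∧
      ∃ d : B.TwistData n (D : Divisor K F) f m, d.Ysp = B.glued hS m ζ

theorem exists_hasTwist (hn : 0 < n) {x : Pic0 K F} (hx : B.IsToric n x) :
    ∃ ζ, HasTwist hS n x ζ := by
  obtain ⟨D, f, hf0, hmk, hord, hred⟩ := hx
  have hf : KummerFn n (D : Divisor K F) f := ⟨hf0, hord⟩
  have hD : Divisor.degree (D : Divisor K F) = 0 := D.2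
  have hbig : Big S m₀ g gF (m₀ + gF + (2 * g + S.card + 1)) :=
    ⟨by omega, by omega, by omega⟩
  obtain ⟨d⟩ := B.nonempty_twistData hn hf hD hred hbig.genus
  obtain ⟨ζ, hζ, h⟩ := d.exists_twist hS hn hf hD hbig
  exact ⟨ζ, hζ, D, f, _, hbig, hmk, hf, d, h⟩

/-- The product of twist data. -/
def TwistData.prod {D D' : Divisor K F} {f f' : F} {m m' : ℕ} (d : B.TwistData n D f m)
    (d' : B.TwistData n D' f' m') : B.TwistData n (D + D') (f * f') (m + m') where
  G₀ := d.G₀ * d'.G₀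
  mem := by
    have := mul_mem_riemannRochSpace d.mem d'.mem
    rwa [add_add_add_comm, ← cuspDiv_add] at this
  G₀_ne := mul_ne_zero d.G₀_ne d'.G₀_ne
  γ i := d.γ i * d'.γ i
  γ_ne i := mul_ne_zero (d.γ_ne i) (d'.γ_ne i)
  ρ i := d.ρ i * d'.ρ i
  ρ_ne i := mul_ne_zero (d.ρ_ne i) (d'.ρ_ne i)
  int i := by
    have e : (d.γ i * d'.γ i) ^ n • B.e i ((d.G₀ * d'.G₀) ^ n * (f * f')) =
        (d.γ i ^ n • B.e i (d.G₀ ^ n * f)) * (d'.γ i ^ n • B.e i (d'.G₀ ^ n * f')) := by
      simp only [← HahnSeries.C_mul_eq_smul, map_mul, map_pow]; ring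
    rw [e]
    exact (d.int i).mul (d'.int i)
  red i := by
    have e : (d.γ i * d'.γ i) ^ n • B.e i ((d.G₀ * d'.G₀) ^ n * (f * f')) =
        (d.γ i ^ n • B.e i (d.G₀ ^ n * f)) * (d'.γ i ^ n • B.e i (d'.G₀ ^ n * f')) := by
      simp only [← HahnSeries.C_mul_eq_smul, map_mul, map_pow]; ring
    rw [e, redSeries_mul (d.int i) (d'.int i), d.red, d'.red, ← map_mul, mul_pow]

theorem TwistData.isY_mul {D D' : Divisor K F} {f f' : F} {m m' : ℕ} (d : B.TwistData n D f m)
    (d' : B.TwistData n D' f' m') {G G' : F} {y y' : Fin 2 → Fk} (h : d.IsY G y)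
    (h' : d'.IsY G' y') : (d.prod d').IsY (G * G') (y * y') := fun i => by
  have e : (d.prod d').tw (G * G') i = d.tw G i * d'.tw G' i := by
    simp only [TwistData.tw, TwistData.prod, ← HahnSeries.C_mul_eq_smul, map_mul, map_pow]; ring
  rw [e]
  refine ⟨(h i).1.mul (h' i).1, ?_⟩
  rw [redSeries_mul (h i).1 (h' i).1, (h i).2, (h' i).2, ← map_mul]
  simp only [TwistData.prod, Pi.mul_apply, mul_pow]
  congr 1
  ring

/-- Twists multiply. -/
theorem HasTwist.mul (hn : 0 < n) {x x' : Pic0 K F} {ζ ζ' : S → k} (h : HasTwist hS n x ζ)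
    (h' : HasTwist hS n x' ζ') : HasTwist hS n (x + x') (fun Q => ζ Q * ζ' Q) := by
  obtain ⟨hζ, D, f, m, hm, hmk, hf, d, hd⟩ := h
  obtain ⟨hζ', D', f', m', hm', hmk', hf', d', hd'⟩ := h'
  have hbig : Big S m₀ g gF (m + m') :=
    ⟨hm.fibre.trans (Nat.le_add_right _ _), hm.genus.trans (Nat.le_add_right _ _),
      hm.eval.trans (Nat.le_add_right _ _)⟩
  refine ⟨fun Q => by rw [mul_pow, hζ, hζ', mul_one], D + D', f * f', m + m', hbig,
    by rw [Pic0.mk_add, hmk, hmk'], hf.mul hf', d.prod d', ?_⟩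
  obtain ⟨ζ'', -, hz⟩ := (d.prod d').exists_twist hS hn (hf.mul hf') (D + D').2 hbig
  suffices ζ'' = fun Q => ζ Q * ζ' Q by rw [← this]; exact hz
  -- elements with value one on the second component
  have elt : ∀ (l : ℕ), Big S m₀ g gF l → ∀ ξ : S → k, ∃ y ∈ B.glued hS l ξ,
      ∀ Q : S, placeVal (B.frobq • (Q : Place k Fk)) (y 1) = 1 ∧
        placeVal (Q : Place k Fk) (y 0) = ξ Q := by
    intro l hl ξ
    obtain ⟨a, ha⟩ := B.ev₀_surjective hS (m := l) (by have := hl.eval; omega) ξ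
    obtain ⟨b, hb⟩ := B.ev₁_surjective hS (m := l) (by have := hl.eval; omega) 1
    refine ⟨B.pairsIncl l (a, b), ⟨(a, b), mem_glueSpace.mpr fun Q => ?_, rfl⟩, fun Q => ?_⟩
    · exact (congrFun ha Q).trans (by
        show ξ Q = ξ Q * (B.ev₁ hS l b) Q
        rw [hb, Pi.one_apply, mul_one])
    · exact ⟨congrFun hb Q, congrFun ha Q⟩
  obtain ⟨y, hy, hyv⟩ := elt m hm ζ
  obtain ⟨y', hy', hyv'⟩ := elt m' hm' ζ'
  obtain ⟨G, hG, hGy⟩ := (hd ▸ hy : y ∈ d.Ysp)
  obtain ⟨G', hG', hGy'⟩ := (hd' ▸ hy' : y' ∈ d'.Ysp)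
  have hmem : y * y' ∈ (d.prod d').Ysp := ⟨G * G', by
      have := mul_mem_riemannRochSpace hG hG'
      rwa [add_add_add_comm, ← cuspDiv_add] at this, d.isY_mul d' hGy hGy'⟩
  rw [hz, mem_glued] at hmem
  obtain ⟨hyr, -⟩ := (B.mem_glued hS).mp hy
  obtain ⟨hyr', -⟩ := (B.mem_glued hS).mp hy'
  funext Q
  have hQ := hmem.2 Q
  rw [Pi.mul_apply, Pi.mul_apply,
    placeVal_mul (B.rrk.deg_eq_one _) (mem_of_mem_single (hyr 0) (B.pts_ne hS Q).1)
      (mem_of_mem_single (hyr' 0) (B.pts_ne hS Q).1),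
    placeVal_mul (B.rrk.deg_eq_one _) (mem_of_mem_single (hyr 1) (B.pts_ne hS Q).2)
      (mem_of_mem_single (hyr' 1) (B.pts_ne hS Q).2),
    (hyv Q).1, (hyv Q).2, (hyv' Q).1, (hyv' Q).2, mul_one, mul_one] at hQ
  exact hQ.symm

/-- The twists of the zero class are constant. -/
theorem HasTwist.const_of_zero (hn : 0 < n) {ζ : S → k} (h : HasTwist hS n 0 ζ) (Q Q' : S) :
    ζ Q = ζ Q' := by
  obtain ⟨-, D, f, m, hm, hmk, hf, d, hd⟩ := h
  have hprin : (D : Divisor K F) ∈ Divisor.principal (K := K) (F := F) :=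
    (QuotientAddGroup.eq_zero_iff D).mp hmk
  obtain ⟨w, hw0, hw⟩ := hprin
  obtain ⟨c, hc⟩ := B.exists_eq_algebraMap_of_ord_eq_zero
    (u := f * (w ^ n)⁻¹) (mul_ne_zero hf.ne_zero (inv_ne_zero (pow_ne_zero _ hw0))) (fun v => by
      rw [v.ord_mul hf.ne_zero (inv_ne_zero (pow_ne_zero _ hw0)), v.ord_inv, FLTA.Curves.ord_pow,
        ← hf.ord_eq, hw v]
      ring)
  rw [mul_inv_eq_iff_eq_mul₀ (pow_ne_zero _ hw0)] at hc
  obtain ⟨e, he⟩ := IsAlgClosed.exists_pow_nat_eq c hn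
  have he0 : e ≠ 0 := by
    rintro rfl
    rw [zero_pow hn.ne'] at he
    exact hf.ne_zero (by rw [hc, ← he, map_zero, zero_mul])
  have hew : algebraMap K F e * w ≠ 0 := mul_ne_zero ((map_ne_zero _).mpr he0) hw0
  have hfe : f = (algebraMap K F e * w) ^ n := by rw [mul_pow, ← map_pow, he, hc]
  have hordw : ∀ v : Place K F, v.ord (algebraMap K F e * w) = (D : Divisor K F) v := fun v => by
    rw [v.ord_mul ((map_ne_zero _).mpr he0) hw0, FLTA.Curves.ord_algebraMap, hw, zero_add]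
  set G : F := (algebraMap K F e * w)⁻¹ with hGdef
  have hG : G ∈ riemannRochSpace ((D : Divisor K F) + B.cuspDiv m) := by
    rw [mem_riemannRochSpace_iff]
    intro v
    refine Or.inr ?_
    rw [hGdef, v.ord_inv, hordw, Finsupp.add_apply]
    have : 0 ≤ B.cuspDiv m v := by
      classical
      rw [cuspDiv, Finsupp.add_apply, Finsupp.single_apply, Finsupp.single_apply]
      split_ifs <;> omega
    omega
  set L₀ : F := d.G₀ * (algebraMap K F e * w) with hL₀
  have hL₀mem : L₀ ∈ riemannRochSpace (B.cuspDiv m) := by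
    rw [mem_riemannRochSpace_iff]
    intro v
    refine Or.inr ?_
    rw [hL₀, v.ord_mul d.G₀_ne hew, hordw]
    have := (mem_riemannRochSpace_iff.mp d.mem v).resolve_left d.G₀_ne
    rw [Finsupp.add_apply] at this
    omega
  have hL₀pow : d.G₀ ^ n * f = L₀ ^ n := by
    calc d.G₀ ^ n * f = d.G₀ ^ n * (algebraMap K F e * w) ^ n := congrArg _ hfe
      _ = L₀ ^ n := (mul_pow _ _ n).symm
  have hint : ∀ i, IntSeries A (d.γ i • B.e i L₀) := fun i => by
    refine intSeries_of_pow (π := π) B.R.π_surjective B.discrete hn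
      ((B.bddSeries_e i hL₀mem).smul _) ((B.fgSeries_e i _).smul _) ?_
    have : (d.γ i • B.e i L₀) ^ n = d.γ i ^ n • B.e i (d.G₀ ^ n * f) := by
      rw [hL₀pow]; simp only [← HahnSeries.C_mul_eq_smul, mul_pow, map_pow]
    rw [this]
    exact d.int i
  have hμ : ∀ i, ∃ μ : k, μ ≠ 0 ∧
      redSeries A π (d.γ i • B.e i L₀) = algebraMap k (LaurentSeries k) μ * B.exk (d.ρ i) := by
    intro i
    obtain ⟨μ, hμn, hμ⟩ := exists_root_of_unity_mul (k := k) hn
      (a := redSeries A π (d.γ i • B.e i L₀)) (b := B.exk (d.ρ i))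
      ((map_ne_zero B.exk).mpr (d.ρ_ne i)) (by
        rw [← redSeries_pow (hint i), ← map_pow, ← d.red, hL₀pow]
        congr 1
        simp only [← HahnSeries.C_mul_eq_smul, mul_pow, map_pow])
    exact ⟨μ, fun h => by rw [h, zero_pow hn.ne'] at hμn; exact zero_ne_one hμn, hμ⟩
  choose μ hμ0 hμ using hμ
  have hy : d.IsY G (fun i => algebraMap k Fk (μ i ^ (n - 1))) := fun i => by
    have e1 : d.tw G i = (d.γ i • B.e i L₀) ^ (n - 1) := by
      have : G * (d.G₀ ^ (n - 1) * f) = L₀ ^ (n - 1) := by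
        have hn1 : (algebraMap K F e * w) ^ n =
            (algebraMap K F e * w) ^ (n - 1) * (algebraMap K F e * w) := by
          rw [← pow_succ, Nat.sub_add_cancel hn]
        calc G * (d.G₀ ^ (n - 1) * f)
            = G * (d.G₀ ^ (n - 1) * (algebraMap K F e * w) ^ n) :=
              congrArg (fun t => G * (d.G₀ ^ (n - 1) * t)) hfe
          _ = L₀ ^ (n - 1) := by
            rw [hn1, hL₀, hGdef]
            generalize hu : algebraMap K F e * w = u at hew ⊢
            rw [mul_pow]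
            field_simp
      rw [TwistData.tw, this]
      simp only [← HahnSeries.C_mul_eq_smul, mul_pow, map_pow]
    rw [e1]
    refine ⟨(hint i).pow _, ?_⟩
    rw [redSeries_pow (hint i), hμ, mul_pow, map_mul, map_pow, AlgHom.commutes, map_pow]
  have hmem : (fun i => algebraMap k Fk (μ i ^ (n - 1))) ∈ B.glued hS m ζ := hd ▸ ⟨G, hG, hy⟩
  rw [mem_glued] at hmem
  have key : ∀ R : S, μ 0 ^ (n - 1) = ζ R * μ 1 ^ (n - 1) := fun R => by
    have := hmem.2 R
    rwa [placeVal_algebraMap (B.rrk.deg_eq_one _), placeVal_algebraMap (B.rrk.deg_eq_one _)] at this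
  exact mul_right_cancel₀ (pow_ne_zero _ (hμ0 1)) ((key Q).symm.trans (key Q'))

/-- The inverse of a toric class is toric. -/
theorem isToric_neg {x : Pic0 K F} (hx : B.IsToric n x) : B.IsToric n (-x) := by
  obtain ⟨D, f, hf0, hmk, hord, hred⟩ := hx
  refine ⟨-D, f⁻¹, inv_ne_zero hf0, ?_, fun P => ?_, fun i => ?_⟩
  · rw [← hmk]; rfl
  · rw [P.ord_inv, ← hord, NegMemClass.coe_neg, Finsupp.neg_apply, mul_neg]
  · obtain ⟨c, η, hc, hη, g', h', hg, hh, hhne, heq, hr⟩ := hred i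
    have hgne : redSeries A π (B.e i g') ≠ 0 := by
      rw [← hr]
      exact mul_ne_zero ((map_ne_zero B.exk).mpr (pow_ne_zero _ hη)) hhne
    refine ⟨c⁻¹, η⁻¹, inv_ne_zero hc, inv_ne_zero hη, h', g', hh, hg, hgne, ?_, ?_⟩
    · rw [← heq, Algebra.smul_def, Algebra.smul_def, map_inv₀]
      have hc' : algebraMap K F c ≠ 0 := (map_ne_zero _).mpr hc
      field_simp
    · rw [← hr, inv_pow, map_inv₀, ← mul_assoc,
        inv_mul_cancel₀ ((map_ne_zero B.exk).mpr (pow_ne_zero _ hη)), one_mul]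

end FLTA.BadRed.BadFibre
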