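import Fermat.Agent.BadRed.Toric.Injective

/-!
# Symmetries and twists

A symmetry that fixes the glued points moves a twist by its action on the residue field.  Since
twists are injective up to constants, inertia fixes toric classes and the square of Frobenius
multiplies them by `q²`.
-/

set_option autoImplicit false

noncomputable section

open AlgebraicCurve FLTA.Curves

namespace FLTA.BadRed.BadFibre

variable {K : Type*} [Field K] {A : ValuationSubring K}
  {k : Type*} [Field k] {π : A →+* k}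
  {q : ℕ} [NeZero q]
  {F : Type*} [Field F] [Algebra K F] {F' : Type*} [Field F'] [Algebra K F']
  {Fk : Type*} [Field Fk] [Algebra k Fk] {g gF : ℕ} (B : BadFibre A π q F F' Fk g gF)

/-- The coefficients of the expansions of a conjugate. -/
theorem e_conj (s : B.Sym) (i : Fin 2) (x : F) :
    B.e i (s.σ • x) = ModularCurve.coeffMap (SemilinearAut.baseAut s.σ).toRingHom (B.e i x) := by
  ext j
  rw [ModularCurve.coeffMap_coeff]
  fin_cases i
  · exact s.ex_σ x j
  · show (B.ex (B.w (s.σ • x))).coeff j = _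
    rw [s.w_σ]
    exact s.ex_σ (B.w x) j

theorem exk_smul (s : B.Sym) (p : Fk) :
    B.exk (s.σk • p) = ModularCurve.coeffMap (SemilinearAut.baseAut s.σk).toRingHom (B.exk p) := by
  ext j
  rw [ModularCurve.coeffMap_coeff]
  exact s.exk_σk p j

/-- Conjugation of integral series commutes with reduction. -/
theorem redSeries_conj (s : B.Sym) {z : LaurentSeries K} (hz : IntSeries A z) :
    IntSeries A (ModularCurve.coeffMap (SemilinearAut.baseAut s.σ).toRingHom z) ∧
      redSeries A π (ModularCurve.coeffMap (SemilinearAut.baseAut s.σ).toRingHom z) =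
        ModularCurve.coeffMap (SemilinearAut.baseAut s.σk).toRingHom (redSeries A π z) := by
  refine ⟨fun j => (s.mem_iff _).2 (hz j), ?_⟩
  ext j
  rw [ModularCurve.coeffMap_coeff, redSeries_coeff, redSeries_coeff, ModularCurve.coeffMap_coeff]
  show redCoeff A π (SemilinearAut.baseAut s.σ (z.coeff j)) =
    SemilinearAut.baseAut s.σk (redCoeff A π (z.coeff j))
  rw [redCoeff, dif_pos ((s.mem_iff _).2 (hz j)), redCoeff, dif_pos (hz j)]
  exact s.π_comm ⟨_, hz j⟩

theorem inertia_smul_fk (s : B.Sym) (hs : s.IsInertia) (p : Fk) : s.σk • p = p := by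
  apply B.exk.injective
  show B.exk (s.σk • p) = B.exk p
  ext j
  rw [s.exk_σk, hs]

theorem frob_smul_fk (s : B.Sym) (hs : s.IsFrob) (p : Fk) : s.σk • p = B.frobq • p := by
  apply B.exk.injective
  show B.exk (s.σk • p) = B.exk (B.frobq • p)
  ext j
  rw [s.exk_σk, hs, B.exk_frobq]

theorem coeffMap_smul_series (φ : K →+* K) (c : K) (z : LaurentSeries K) :
    ModularCurve.coeffMap φ (c • z) = φ c • ModularCurve.coeffMap φ z := by
  ext j
  simp

/-- Two semilinear automorphisms equal on functions are equal on places. -/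
theorem place_smul_congr {g₁ g₂ : SemilinearAut k Fk} (h : ∀ x : Fk, g₁ • x = g₂ • x)
    (v : Place k Fk) : g₁ • v = g₂ • v :=
  FLTA.Curves.place_ext_ord fun f => by
    have h1 := SemilinearAut.ord_smul g₁ v (g₁⁻¹ • f)
    have h2 := SemilinearAut.ord_smul g₂ v (g₁⁻¹ • f)
    rw [smul_inv_smul] at h1
    rw [← h, smul_inv_smul] at h2
    exact h1.trans h2.symm

theorem smul_P (s : B.Sym) (i : Fin 2) : s.σ • B.P i = B.P i :=
  FLTA.Curves.place_ext_ord fun f => by
    rcases eq_or_ne f 0 with rfl | hf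
    · simp
    have hg : s.σ⁻¹ • f ≠ 0 := (smul_ne_zero_iff_ne _).mpr hf
    have h1 := SemilinearAut.ord_smul s.σ (B.P i) (s.σ⁻¹ • f)
    rw [smul_inv_smul] at h1
    have h2 : B.e i f =
        ModularCurve.coeffMap (SemilinearAut.baseAut s.σ).toRingHom (B.e i (s.σ⁻¹ • f)) := by
      rw [← B.e_conj, smul_inv_smul]
    have h3 : ∀ j, (B.e i f).coeff j = 0 ↔ (B.e i (s.σ⁻¹ • f)).coeff j = 0 := fun j => by
      rw [h2, ModularCurve.coeffMap_coeff]
      exact map_eq_zero_iff _ (SemilinearAut.baseAut s.σ).injective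
    rw [h1, B.ord_P i hg, B.ord_P i hf]
    refine le_antisymm (HahnSeries.order_le_of_coeff_ne_zero fun h0 => ?_)
      (HahnSeries.order_le_of_coeff_ne_zero fun h0 => ?_)
    · exact B.e_ne_zero i hf (HahnSeries.coeff_order_eq_zero.mp ((h3 _).mpr h0))
    · exact B.e_ne_zero i hg (HahnSeries.coeff_order_eq_zero.mp ((h3 _).mp h0))

theorem smul_cuspDiv (s : B.Sym) (m : ℕ) : s.σ • B.cuspDiv m = B.cuspDiv m := by
  rw [cuspDiv, smul_add, SemilinearAut.smul_single, SemilinearAut.smul_single, B.smul_P, B.smul_P]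

/-- Conjugation moves Riemann-Roch spaces. -/
theorem smul_mem_riemannRochSpace' (σ : SemilinearAut K F) {E : Divisor K F} {x : F}
    (hx : x ∈ riemannRochSpace E) : σ • x ∈ riemannRochSpace (σ • E) := by
  rw [mem_riemannRochSpace_iff]
  intro v
  rcases mem_riemannRochSpace_iff.mp hx (σ⁻¹ • v) with h | h
  · exact Or.inl (by rw [h, smul_zero])
  · right
    have h1 := SemilinearAut.ord_smul σ (σ⁻¹ • v) x
    rw [smul_inv_smul] at h1
    rw [SemilinearAut.divisor_smul_apply, h1]
    exact h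

/-- Values at conjugate points. -/
theorem placeVal_semilinear {Q : Place k Fk} (hQ : Q.deg = 1) (τ : SemilinearAut k Fk) {x : Fk}
    (hx : x ∈ Q.toValuationSubring) :
    placeVal (τ • Q) (τ • x) = SemilinearAut.baseAut τ (placeVal Q x) := by
  have hQ' : (τ • Q).deg = 1 := by rw [SemilinearAut.deg_smul, hQ]
  have hx' : τ • x ∈ (τ • Q).toValuationSubring :=
    ValuationSubring.smul_mem_pointwise_smul τ x Q.toValuationSubring hx
  apply (algebraMap k (τ • Q).ResidueField).injective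
  rw [← placeVal_spec hQ' hx', ← SemilinearAut.smulResidueRingEquiv_algebraMap,
    ← placeVal_spec hQ hx]
  show IsLocalRing.residue _ _ = IsLocalRing.ResidueField.mapEquiv
    (SemilinearAut.smulValuationSubringEquiv τ Q.toValuationSubring) (IsLocalRing.residue _ _)
  rw [IsLocalRing.ResidueField.mapEquiv_apply, IsLocalRing.ResidueField.map_residue]
  rfl

/-- The composition of a symmetry with itself. -/
def Sym.sq {B : BadFibre A π q F F' Fk g gF} (s : B.Sym) : B.Sym where
  σ := s.σ * s.σ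
  σk := s.σk * s.σk
  mem_iff c := (s.mem_iff _).trans (s.mem_iff c)
  π_comm c := (s.π_comm ⟨_, (s.mem_iff _).2 c.2⟩).trans
    (congrArg (SemilinearAut.baseAut s.σk) (s.π_comm c))
  ex_σ x i := by
    rw [mul_smul, s.ex_σ, s.ex_σ]
    rfl
  exk_σk x i := by
    rw [mul_smul, s.exk_σk, s.exk_σk]
    rfl
  w_σ x := by rw [mul_smul, mul_smul, s.w_σ, s.w_σ]

variable {B} {n : ℕ} {D : Divisor K F} {f : F} {m : ℕ}

theorem KummerFn.conj (hf : KummerFn n D f) (σ : SemilinearAut K F) :
    KummerFn n (σ • D) (σ • f) where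
  ne_zero := (smul_ne_zero_iff_ne σ).mpr hf.ne_zero
  ord_eq P := by
    rw [SemilinearAut.divisor_smul_apply, hf.ord_eq]
    have h := SemilinearAut.ord_smul σ (σ⁻¹ • P) f
    rw [smul_inv_smul] at h
    exact h.symm

namespace TwistData

theorem conj_series (d : B.TwistData n D f m) (s : B.Sym) (i : Fin 2) :
    SemilinearAut.baseAut s.σ (d.γ i) ^ n • B.e i ((s.σ • d.G₀) ^ n * (s.σ • f)) =
      ModularCurve.coeffMap (SemilinearAut.baseAut s.σ).toRingHom
        (d.γ i ^ n • B.e i (d.G₀ ^ n * f)) := by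
  rw [← smul_pow', ← smul_mul', B.e_conj, coeffMap_smul_series, map_pow]
  rfl

/-- Conjugate twist data. -/
def conj (d : B.TwistData n D f m) (s : B.Sym) : B.TwistData n (s.σ • D) (s.σ • f) m where
  G₀ := s.σ • d.G₀
  mem := by
    have h := smul_mem_riemannRochSpace' s.σ d.mem
    rwa [smul_add, B.smul_cuspDiv] at h
  G₀_ne := (smul_ne_zero_iff_ne s.σ).mpr d.G₀_ne
  γ i := SemilinearAut.baseAut s.σ (d.γ i)
  γ_ne i := (map_ne_zero _).mpr (d.γ_ne i)
  ρ i := s.σk • d.ρ i
  ρ_ne i := (smul_ne_zero_iff_ne s.σk).mpr (d.ρ_ne i)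
  int i := by
    rw [d.conj_series s i]
    exact (B.redSeries_conj s (d.int i)).1
  red i := by
    rw [d.conj_series s i, (B.redSeries_conj s (d.int i)).2, d.red, ← B.exk_smul, smul_pow']

theorem isY_conj (d : B.TwistData n D f m) (s : B.Sym) {G : F} {y : Fin 2 → Fk}
    (h : d.IsY G y) : (d.conj s).IsY (s.σ • G) (fun i => s.σk • y i) := fun i => by
  have e : (d.conj s).tw (s.σ • G) i =
      ModularCurve.coeffMap (SemilinearAut.baseAut s.σ).toRingHom (d.tw G i) := by
    show SemilinearAut.baseAut s.σ (d.γ i) ^ (n - 1) •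
      B.e i (s.σ • G * ((s.σ • d.G₀) ^ (n - 1) * (s.σ • f))) = _
    rw [← smul_pow', ← smul_mul', ← smul_mul', B.e_conj, TwistData.tw, coeffMap_smul_series,
      map_pow]
    rfl
  rw [e]
  refine ⟨(B.redSeries_conj s (h i).1).1, ?_⟩
  rw [(B.redSeries_conj s (h i).1).2, (h i).2, ← B.exk_smul, smul_mul', smul_pow']
  rfl

end TwistData

section Twist

variable [IsAlgClosed K] [CharZero K] [IsAlgClosed k] [Fact q.Prime] [CharP k q]
  {S : Finset (Place k Fk)} {m₀ : ℕ} (hS : B.IsGluing S m₀)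

include hS in
/-- A symmetry permuting the glued pairs moves and conjugates the twist. -/
theorem HasTwist.conjPerm (hn : 0 < n) {x : Pic0 K F} {ζ : S → k} (h : HasTwist hS n x ζ) (s : B.Sym)
    (τ : S → S) (hfix : ∀ Q : S, s.σk • (τ Q : Place k Fk) = Q ∧
      s.σk • (B.frobq • (τ Q : Place k Fk)) = B.frobq • (Q : Place k Fk)) :
    HasTwist hS n (s.σ • x) (fun Q => SemilinearAut.baseAut s.σk (ζ (τ Q))) := by
  obtain ⟨hζ, D, f, m, hm, hmk, hf, d, hd⟩ := h
  refine ⟨fun Q => by rw [← map_pow, hζ, map_one], SemilinearAut.degZeroSMulHom s.σ D, s.σ • f, m,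
    hm, by rw [← SemilinearAut.pic0_smul_mk, hmk], hf.conj s.σ, d.conj s, ?_⟩
  obtain ⟨ζ', -, hd'⟩ :=
    (d.conj s).exists_twist hS hn (hf.conj s.σ) (SemilinearAut.degZeroSMulHom s.σ D).2 hm
  suffices ζ' = fun Q => SemilinearAut.baseAut s.σk (ζ (τ Q)) by rw [← this]; exact hd'
  obtain ⟨a, ha⟩ := B.ev₀_surjective hS (m := m) (by have := hm.eval; omega) ζ
  obtain ⟨b, hb⟩ := B.ev₁_surjective hS (m := m) (by have := hm.eval; omega) 1
  have hy : (![(a : Fk), (b : Fk)] : Fin 2 → Fk) ∈ d.Ysp := by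
    rw [hd, mem_glued]
    refine ⟨Fin.forall_fin_two.mpr ⟨a.2, b.2⟩, fun Q => ?_⟩
    have h0 := congrFun ha Q
    have h1 := congrFun hb Q
    rw [ev₀_apply] at h0
    rw [ev₁_apply] at h1
    show placeVal _ (a : Fk) = ζ Q * placeVal _ (b : Fk)
    rw [h0, h1, Pi.one_apply, mul_one]
  obtain ⟨G, hG, hGy⟩ := hy
  have hy' : (fun i => s.σk • (![(a : Fk), (b : Fk)] i)) ∈ (d.conj s).Ysp := by
    refine ⟨s.σ • G, ?_, d.isY_conj s hGy⟩
    have h := smul_mem_riemannRochSpace' s.σ hG
    rw [smul_add, B.smul_cuspDiv] at h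
    exact h
  rw [hd', mem_glued] at hy'
  funext Q
  have hQ := hy'.2 Q
  have h0 := congrFun ha (τ Q)
  have h1 := congrFun hb (τ Q)
  rw [ev₀_apply] at h0
  rw [ev₁_apply] at h1
  have hA : placeVal (Q : Place k Fk) (s.σk • (a : Fk)) =
      SemilinearAut.baseAut s.σk (ζ (τ Q)) := by
    conv_lhs => rw [← (hfix Q).1]
    rw [placeVal_semilinear (B.rrk.deg_eq_one _) s.σk (mem_of_mem_single a.2 (B.pts_ne hS (τ Q)).1),
      h0]
  have hB : placeVal (B.frobq • (Q : Place k Fk)) (s.σk • (b : Fk)) = 1 := by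
    conv_lhs => rw [← (hfix Q).2]
    rw [placeVal_semilinear (B.rrk.deg_eq_one _) s.σk (mem_of_mem_single b.2 (B.pts_ne hS (τ Q)).2),
      h1, Pi.one_apply, map_one]
  change placeVal (Q : Place k Fk) (s.σk • (a : Fk)) =
    ζ' Q * placeVal (B.frobq • (Q : Place k Fk)) (s.σk • (b : Fk)) at hQ
  rw [hA, hB, mul_one] at hQ
  exact hQ.symm

include hS in
/-- A symmetry fixing the glued points moves the twist by its action on constants. -/
theorem HasTwist.conj (hn : 0 < n) {x : Pic0 K F} {ζ : S → k} (h : HasTwist hS n x ζ) (s : B.Sym)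
    (hfix : ∀ Q ∈ S, s.σk • Q = Q ∧ s.σk • (B.frobq • Q) = B.frobq • Q) :
    HasTwist hS n (s.σ • x) (fun Q => SemilinearAut.baseAut s.σk (ζ Q)) :=
  h.conjPerm hS hn s id fun Q => hfix Q Q.2

include hS in
theorem HasTwist.succ_nsmul (hn : 0 < n) {x : Pic0 K F} {ζ : S → k} (h : HasTwist hS n x ζ) :
    ∀ j : ℕ, HasTwist hS n ((j + 1) • x) (fun Q => ζ Q ^ (j + 1))
  | 0 => by simpa using h
  | j + 1 => by
    have h2 := (HasTwist.succ_nsmul hn h j).mul hS hn h
    rw [← _root_.succ_nsmul] at h2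
    simpa only [← pow_succ] using h2

include hS in
/-- Twists of opposite classes multiply to a constant. -/
theorem HasTwist.const_of_neg (hn : 0 < n) {x : Pic0 K F} {ζ η : S → k}
    (h : HasTwist hS n x ζ) (h' : HasTwist hS n (-x) η) (Q Q' : S) :
    ζ Q * η Q = ζ Q' * η Q' := by
  have h2 := h.mul hS hn h'
  rw [add_neg_cancel] at h2
  exact h2.const_of_zero hS hn Q Q'

end Twist

end FLTA.BadRed.BadFibre
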