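import Fermat.Agent.BadRed.Toric.Bounded
import Fermat.Agent.BadRed.Toric.Eval
import Fermat.Agent.BadRed.GlueSpace
import Fermat.Agent.BadRed.SeriesRoot
import Fermat.Agent.BadRed.Residue
import Fermat.Agent.BadRed.Fibre
import Fermat.Agent.Curves.RRSpace

/-!
# The twisted special fibre of a toric class

For a Kummer function `f` of a class `[D]` (so `div f = n D`) reducing to `n`-th powers, the space
`V = L(D + m(∞ + 0))` has, through `G ↦ G G₀^(n-1) f ∈ L(n m (∞ + 0))`, a reduction `Ysp`; it is a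
twisted gluing space, with a twist `ζ` of `n`-th roots of unity.
-/

set_option autoImplicit false

noncomputable section

open AlgebraicCurve FLTA.Curves

namespace FLTA.BadRed.BadFibre

variable {K : Type*} [Field K] {A : ValuationSubring K}
  {k : Type*} [Field k] {π : A →+* k}
  {q : ℕ} [NeZero q]
  {F : Type*} [Field F] [Algebra K F] {F' : Type*} [Field F'] [Algebra K F']
  {Fk : Type*} [Field Fk] [Algebra k Fk] {g gF : ℕ} (B : BadFibre A π q F F' Fk g gF)

/-- `div f = n D`. -/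
structure KummerFn (n : ℕ) (D : Divisor K F) (f : F) : Prop where
  ne_zero : f ≠ 0
  ord_eq : ∀ P : Place K F, (n : ℤ) * D P = P.ord f

theorem KummerFn.mem {n : ℕ} {D : Divisor K F} {f : F} (hf : KummerFn n D f) :
    f ∈ riemannRochSpace (-((n : ℤ) • D)) := by
  rw [mem_riemannRochSpace_iff]
  exact fun v => Or.inr (by rw [Finsupp.neg_apply, neg_neg, Finsupp.smul_apply, ← hf.ord_eq v]; rfl)

theorem KummerFn.mul {n : ℕ} {D D' : Divisor K F} {f f' : F} (h : KummerFn n D f)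
    (h' : KummerFn n D' f') : KummerFn n (D + D') (f * f') where
  ne_zero := mul_ne_zero h.ne_zero h'.ne_zero
  ord_eq P := by rw [P.ord_mul h.ne_zero h'.ne_zero, Finsupp.add_apply, mul_add, h.ord_eq, h'.ord_eq]

theorem pow_mem_riemannRochSpace {D : Divisor K F} {x : F} (hx : x ∈ riemannRochSpace D) :
    ∀ n : ℕ, x ^ n ∈ riemannRochSpace ((n : ℤ) • D)
  | 0 => fun v => by simp
  | n + 1 => by
    rw [pow_succ, Nat.cast_succ, add_smul, one_smul]
    exact mul_mem_riemannRochSpace (pow_mem_riemannRochSpace hx n) hx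

theorem natCast_smul_cuspDiv (n m : ℕ) : (n : ℤ) • B.cuspDiv m = B.cuspDiv (n * m) := by
  simp [cuspDiv]

/-- The data of a twisted special fibre. -/
structure TwistData (n : ℕ) (D : Divisor K F) (f : F) (m : ℕ) where
  /-- a section -/
  G₀ : F
  mem : G₀ ∈ riemannRochSpace (D + B.cuspDiv m)
  G₀_ne : G₀ ≠ 0
  /-- `n`-th roots of the scalings -/
  γ : Fin 2 → K
  γ_ne : ∀ i, γ i ≠ 0
  /-- `n`-th roots of the reductions -/
  ρ : Fin 2 → Fk
  ρ_ne : ∀ i, ρ i ≠ 0
  int : ∀ i, IntSeries A (γ i ^ n • B.e i (G₀ ^ n * f))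
  red : ∀ i, redSeries A π (γ i ^ n • B.e i (G₀ ^ n * f)) = B.exk (ρ i ^ n)

namespace TwistData

variable {B} {n : ℕ} {D : Divisor K F} {f : F} {m : ℕ} (d : B.TwistData n D f m)

/-- The reference series. -/
theorem red_ne (i : Fin 2) : redSeries A π (d.γ i ^ n • B.e i (d.G₀ ^ n * f)) ≠ 0 := by
  rw [d.red]
  exact (map_ne_zero B.exk).mpr (pow_ne_zero _ (d.ρ_ne i))

/-- `G ↦ γ^(n-1) e(G G₀^(n-1) f)`. -/
def tw (G : F) (i : Fin 2) : LaurentSeries K :=
  d.γ i ^ (n - 1) • B.e i (G * (d.G₀ ^ (n - 1) * f))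

/-- `tw` as a linear map. -/
def twLin : F →ₗ[K] (Fin 2 → LaurentSeries K) where
  toFun := d.tw
  map_add' x y := funext fun i => by simp [tw, add_mul, smul_add]
  map_smul' c x := funext fun i => by
    show d.γ i ^ (n - 1) • B.e i (c • x * (d.G₀ ^ (n - 1) * f)) =
      c • (d.γ i ^ (n - 1) • B.e i (x * (d.G₀ ^ (n - 1) * f)))
    rw [smul_mul_assoc, ← B.smul_e, smul_comm]

theorem twLin_apply (G : F) (i : Fin 2) : d.twLin G i = d.tw G i := rfl

include d in
theorem mul_pow_mul_mem (hn : 0 < n) (hf : KummerFn n D f) {G G' : F}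
    (hG : G ∈ riemannRochSpace (D + B.cuspDiv m)) (hG' : G' ∈ riemannRochSpace (D + B.cuspDiv m)) :
    G * (G' ^ (n - 1) * f) ∈ riemannRochSpace (B.cuspDiv (n * m)) := by
  have h := mul_mem_riemannRochSpace hG
    (mul_mem_riemannRochSpace (pow_mem_riemannRochSpace hG' (n - 1)) hf.mem)
  have e : D + B.cuspDiv m + (((n - 1 : ℕ) : ℤ) • (D + B.cuspDiv m) + -((n : ℤ) • D)) =
      B.cuspDiv (n * m) := by
    rw [← natCast_smul_cuspDiv, show (n : ℤ) = ((n - 1 : ℕ) : ℤ) + 1 by omega]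
    simp only [smul_add, add_smul, one_smul]
    abel
  exact e ▸ h

include d in
theorem pow_mul_mem (hn : 0 < n) (hf : KummerFn n D f) {G : F}
    (hG : G ∈ riemannRochSpace (D + B.cuspDiv m)) :
    G ^ n * f ∈ riemannRochSpace (B.cuspDiv (n * m)) := by
  have := d.mul_pow_mul_mem hn hf hG hG
  rwa [← mul_assoc, ← pow_succ', Nat.sub_add_cancel hn] at this

theorem tw_bdd (hn : 0 < n) (hf : KummerFn n D f) {G : F}
    (hG : G ∈ riemannRochSpace (D + B.cuspDiv m)) (i : Fin 2) : BddSeries A (d.tw G i) :=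
  (B.bddSeries_e i (d.mul_pow_mul_mem hn hf hG d.mem)).smul _

theorem tw_fg (G : F) (i : Fin 2) : FgSeries (d.tw G i) := (B.fgSeries_e i _).smul _

theorem tw_ne_zero (hf : KummerFn n D f) {G : F} (hG : G ≠ 0) (i : Fin 2) : d.tw G i ≠ 0 :=
  smul_ne_zero (pow_ne_zero _ (d.γ_ne i))
    (B.e_ne_zero i (mul_ne_zero hG (mul_ne_zero (pow_ne_zero _ d.G₀_ne) hf.ne_zero)))

/-- The key identity. -/
theorem tw_pow (hn : 0 < n) (G : F) (i : Fin 2) :
    d.tw G i ^ n = (d.γ i ^ n • B.e i (d.G₀ ^ n * f)) ^ (n - 1) * B.e i (G ^ n * f) := by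
  obtain ⟨j, rfl⟩ : ∃ j, n = j + 1 := ⟨n - 1, by omega⟩
  simp only [tw, Nat.add_sub_cancel, ← HahnSeries.C_mul_eq_smul, map_mul, map_pow]
  ring

/-- `y` is the reduction of `G`. -/
def IsY (G : F) (y : Fin 2 → Fk) : Prop :=
  ∀ i, IntSeries A (d.tw G i) ∧ redSeries A π (d.tw G i) = B.exk (y i * d.ρ i ^ (n - 1))

/-- `y^n` is the reduction of `G^n f`. -/
theorem isY_pow (hn : 0 < n) (hf : KummerFn n D f) {G : F}
    (hG : G ∈ riemannRochSpace (D + B.cuspDiv m)) {y : Fin 2 → Fk} (hy : d.IsY G y) :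
    B.IsRed (G ^ n * f) (fun i => y i ^ n) := by
  have hint : ∀ i, IntSeries A (B.e i (G ^ n * f)) := fun i => by
    refine intSeries_right_of_mul (π := π) B.R.π_surjective B.discrete ((d.int i).pow (n - 1)) ?_
      (B.bddSeries_e i (d.pow_mul_mem hn hf hG)) (B.fgSeries_e i _) ?_
    · rw [redSeries_pow (d.int i)]
      exact pow_ne_zero _ (d.red_ne i)
    · rw [← d.tw_pow hn]
      exact (hy i).1.pow n
  refine ⟨hint, fun i => ?_⟩
  have h := congrArg (redSeries A π) (d.tw_pow hn G i)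
  rw [redSeries_pow (hy i).1, redSeries_mul ((d.int i).pow _) (hint i), redSeries_pow (d.int i),
    (hy i).2, d.red, ← map_pow, mul_pow, ← pow_mul, ← map_pow, ← pow_mul, mul_comm n (n - 1),
    map_mul, mul_comm] at h
  exact mul_left_cancel₀ ((map_ne_zero B.exk).mpr (pow_ne_zero _ (d.ρ_ne i))) h

theorem isY_add {G G' : F} {y y' : Fin 2 → Fk} (h : d.IsY G y) (h' : d.IsY G' y') :
    d.IsY (G + G') (y + y') := fun i => by
  have e : d.tw (G + G') i = d.tw G i + d.tw G' i := congrFun (d.twLin.map_add G G') i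
  rw [e]
  exact ⟨(h i).1.add (h' i).1, by
    rw [redSeries_add (h i).1 (h' i).1, (h i).2, (h' i).2, ← map_add, Pi.add_apply, add_mul]⟩

/-- The reduction of `V = L(D + m (∞ + 0))`. -/
def Ysp : Submodule k (Fin 2 → Fk) where
  carrier := {y | ∃ G ∈ riemannRochSpace (D + B.cuspDiv m), d.IsY G y}
  add_mem' := by
    rintro _ _ ⟨G, hG, h⟩ ⟨G', hG', h'⟩
    exact ⟨G + G', add_mem hG hG', d.isY_add h h'⟩
  zero_mem' := ⟨0, zero_mem _, fun i => by
    rw [show d.tw 0 i = 0 from congrFun d.twLin.map_zero i]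
    exact ⟨IntSeries.zero, by simp⟩⟩
  smul_mem' := by
    rintro c y ⟨G, hG, h⟩
    obtain ⟨a, rfl⟩ := B.R.π_surjective c
    refine ⟨(a : K) • G, Submodule.smul_mem _ _ hG, fun i => ?_⟩
    rw [show d.tw ((a : K) • G) i = (a : K) • d.tw G i from congrFun (d.twLin.map_smul _ _) i]
    refine ⟨(h i).1.smul a.2, ?_⟩
    rw [redSeries_smul a.2 (h i).1, (h i).2, Pi.smul_apply, smul_mul_assoc]
    ext j
    simp [Algebra.smul_def, ModularCurve.algebraMap_laurentSeries_eq_single]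

theorem mem_Ysp {y : Fin 2 → Fk} :
    y ∈ d.Ysp ↔ ∃ G ∈ riemannRochSpace (D + B.cuspDiv m), d.IsY G y := Iff.rfl

/-- Every integral `tw G` has a reduction. -/
theorem exists_isY [IsAlgClosed K] [CharZero K] [IsAlgClosed k] [Fact q.Prime] [CharP k q]
    {G : F} (h : ∀ i, IntSeries A (d.tw G i)) : ∃ y, d.IsY G y := by
  choose p hp using fun i => B.exists_exk_eq_redSeries i (h i)
  refine ⟨fun i => p i / d.ρ i ^ (n - 1), fun i => ⟨h i, ?_⟩⟩
  rw [div_mul_cancel₀ _ (pow_ne_zero _ (d.ρ_ne i))]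
  exact (hp i).symm

/-- `y ↦ exk (y ρ^(n-1))`. -/
def readY : (Fin 2 → Fk) →ₗ[k] (Fin 2 → LaurentSeries k) where
  toFun y i := B.exk (y i * d.ρ i ^ (n - 1))
  map_add' y z := funext fun i => by simp [add_mul]
  map_smul' c y := funext fun i => by
    ext j
    simp [Algebra.smul_def, mul_assoc, ModularCurve.algebraMap_laurentSeries_eq_single]

theorem readY_injective : Function.Injective d.readY := fun y z h => funext fun i =>
  mul_right_cancel₀ (pow_ne_zero _ (d.ρ_ne i)) (B.exk.injective (congrFun h i))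

theorem twLin_injective (hf : KummerFn n D f) : Function.Injective d.twLin := by
  rw [injective_iff_map_eq_zero]
  intro G hG
  by_contra h
  exact d.tw_ne_zero hf h 0 (congrFun hG 0)

/-- The image `T` of `V`. -/
def imageTw : Submodule K (Fin 2 → LaurentSeries K) :=
  (riemannRochSpace (D + B.cuspDiv m)).map d.twLin

theorem scalable_imageTw (hn : 0 < n) (hf : KummerFn n D f) : Scalable π d.imageTw := by
  rintro _ ⟨G, hG, rfl⟩ hne
  exact exists_primitive_multiple B.discrete hne (fun i => d.tw_bdd hn hf hG i)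
    (fun i => d.tw_fg G i)

theorem map_readY_Ysp [IsAlgClosed K] [CharZero K] [IsAlgClosed k] [Fact q.Prime] [CharP k q] :
    (d.Ysp.map d.readY : Set (Fin 2 → LaurentSeries k)) = redSet π d.imageTw := by
  ext p
  constructor
  · rintro ⟨y, ⟨G, hG, hy⟩, rfl⟩
    exact ⟨_, ⟨G, hG, rfl⟩, fun i => (hy i).1, fun i => ((hy i).2).symm⟩
  · rintro ⟨_, ⟨G, hG, rfl⟩, hint, hp⟩
    obtain ⟨y, hy⟩ := d.exists_isY (G := G) hint
    exact ⟨y, ⟨G, hG, hy⟩, funext fun i => ((hy i).2).symm.trans (hp i).symm⟩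

theorem finrank_Ysp [IsAlgClosed K] [CharZero K] [IsAlgClosed k] [Fact q.Prime] [CharP k q]
    (hn : 0 < n) (hf : KummerFn n D f) (hD : Divisor.degree D = 0) (hm : gF ≤ m) :
    (Module.finrank k d.Ysp : ℤ) = 2 * m + 1 - gF := by
  have := B.rrF.finiteDimensional (D + B.cuspDiv m)
  have : FiniteDimensional K d.imageTw := Module.Finite.map _ _
  obtain ⟨h1, -, h3⟩ := finrank_span_redSet B.R.π_surjective _ (d.scalable_imageTw hn hf)
  have e : Submodule.span k (redSet π d.imageTw) = d.Ysp.map d.readY :=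
    SetLike.coe_injective (h1.trans d.map_readY_Ysp.symm)
  rw [e] at h3
  rw [(Submodule.equivMapOfInjective _ d.readY_injective d.Ysp).finrank_eq, h3,
    show d.imageTw = (riemannRochSpace (D + B.cuspDiv m)).map d.twLin from rfl,
    ← (Submodule.equivMapOfInjective _ (d.twLin_injective hf) _).finrank_eq,
    B.rrF.finrank_eq _ (by rw [map_add, hD, degree_cuspDiv]; omega), map_add, hD, degree_cuspDiv]
  ring

end TwistData

/-- Pairs in `L(m ∞)`. -/
def pairsIncl (m : ℕ) :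
    riemannRochSpace (Finsupp.single B.infk (m : ℤ)) ×
      riemannRochSpace (Finsupp.single B.infk (m : ℤ)) →ₗ[k] (Fin 2 → Fk) :=
  LinearMap.pi ![(Submodule.subtype _).comp (LinearMap.fst k _ _),
    (Submodule.subtype _).comp (LinearMap.snd k _ _)]

@[simp] theorem pairsIncl_zero (m : ℕ) (x) : B.pairsIncl m x 0 = (x.1 : Fk) := rfl

@[simp] theorem pairsIncl_one (m : ℕ) (x) : B.pairsIncl m x 1 = (x.2 : Fk) := rfl

theorem pairsIncl_injective (m : ℕ) : Function.Injective (B.pairsIncl m) := fun x y h =>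
  Prod.ext (Subtype.ext (congrFun h 0)) (Subtype.ext (congrFun h 1))

variable {S : Finset (Place k Fk)} {m₀ : ℕ} (hS : B.IsGluing S m₀)

include hS in
theorem pts_ne (Q : S) : (Q : Place k Fk) ≠ B.infk ∧ B.frobq • (Q : Place k Fk) ≠ B.infk :=
  ⟨fun h => hS.infk_notMem (h ▸ Q.2), hS.smul_ne _ Q.2⟩

/-- Evaluation on the first component. -/
def ev₀ (m : ℕ) : riemannRochSpace (Finsupp.single B.infk (m : ℤ)) →ₗ[k] (S → k) :=
  evalMap B.rrk (fun Q : S => (Q : Place k Fk)) (fun Q => (B.pts_ne hS Q).1) m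

/-- Evaluation on the second component. -/
def ev₁ (m : ℕ) : riemannRochSpace (Finsupp.single B.infk (m : ℤ)) →ₗ[k] (S → k) :=
  evalMap B.rrk (fun Q : S => B.frobq • (Q : Place k Fk)) (fun Q => (B.pts_ne hS Q).2) m

@[simp] theorem ev₀_apply (m : ℕ) (x) (Q : S) :
    B.ev₀ hS m x Q = placeVal (Q : Place k Fk) (x : Fk) := rfl

@[simp] theorem ev₁_apply (m : ℕ) (x) (Q : S) :
    B.ev₁ hS m x Q = placeVal (B.frobq • (Q : Place k Fk)) (x : Fk) := rfl

theorem ev₀_surjective {m : ℕ} (hm : 2 * g + S.card ≤ m + 1) :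
    Function.Surjective (B.ev₀ hS m) :=
  evalMap_surjective B.rrk _ _ Subtype.val_injective (by simpa using hm)

theorem ev₁_surjective {m : ℕ} (hm : 2 * g + S.card ≤ m + 1) :
    Function.Surjective (B.ev₁ hS m) :=
  evalMap_surjective B.rrk _ _ (fun _ _ h => Subtype.ext (MulAction.injective B.frobq h))
    (by simpa using hm)

/-- The gluing space twisted by `ζ`. -/
def glued (m : ℕ) (ζ : S → k) : Submodule k (Fin 2 → Fk) :=
  (glueSpace (B.ev₀ hS m) (B.ev₁ hS m) ζ).map (B.pairsIncl m)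

theorem mem_glued {m : ℕ} {ζ : S → k} {y : Fin 2 → Fk} : y ∈ B.glued hS m ζ ↔
    (∀ i, y i ∈ riemannRochSpace (Finsupp.single B.infk (m : ℤ))) ∧
      ∀ Q : S, placeVal (Q : Place k Fk) (y 0) = ζ Q * placeVal (B.frobq • (Q : Place k Fk)) (y 1) := by
  constructor
  · rintro ⟨x, hx, rfl⟩
    exact ⟨Fin.forall_fin_two.mpr ⟨x.1.2, x.2.2⟩, fun Q => mem_glueSpace.mp hx Q⟩
  · rintro ⟨h1, h2⟩
    refine ⟨(⟨_, h1 0⟩, ⟨_, h1 1⟩), mem_glueSpace.mpr fun Q => h2 Q, funext ?_⟩
    exact Fin.forall_fin_two.mpr ⟨rfl, rfl⟩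

theorem fibreSections_eq_glued {m : ℕ} (hm : m₀ ≤ m) :
    B.fibreSections m = (B.glued hS m 1 : Set (Fin 2 → Fk)) := by
  ext p
  rw [hS.mem_iff m hm p, SetLike.mem_coe, mem_glued]
  simp

/-- `m` is large. -/
structure Big (S : Finset (Place k Fk)) (m₀ : ℕ) (g gF m : ℕ) : Prop where
  fibre : m₀ ≤ m
  genus : gF ≤ m
  eval : 2 * g + S.card + 1 ≤ m

variable {B}

namespace TwistData

variable [IsAlgClosed K] [CharZero K] [IsAlgClosed k] [Fact q.Prime] [CharP k q]
  {n : ℕ} {D : Divisor K F} {f : F} {m : ℕ} (d : B.TwistData n D f m)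

include hS in
theorem mem_Ysp_values (hn : 0 < n) (hf : KummerFn n D f) (hm : m₀ ≤ m) {y : Fin 2 → Fk}
    (hy : y ∈ d.Ysp) : (∀ i, y i ∈ riemannRochSpace (Finsupp.single B.infk (m : ℤ))) ∧
      ∀ Q : S, placeVal (Q : Place k Fk) (y 0) ^ n =
        placeVal (B.frobq • (Q : Place k Fk)) (y 1) ^ n := by
  obtain ⟨G, hG, hy⟩ := hy
  have hmem : (fun i => y i ^ n) ∈ B.fibreSections (n * m) :=
    ⟨_, d.pow_mul_mem hn hf hG, d.isY_pow hn hf hG hy⟩
  obtain ⟨h1, h2⟩ := (hS.mem_iff _ (hm.trans (Nat.le_mul_of_pos_left _ hn)) _).mp hmem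
  have hy1 : ∀ i, y i ∈ riemannRochSpace (Finsupp.single B.infk (m : ℤ)) := fun i => by
    rw [mem_riemannRochSpace_iff]
    intro v
    rcases eq_or_ne (y i) 0 with h0 | h0
    · exact Or.inl h0
    right
    have h := (mem_riemannRochSpace_iff.mp (h1 i) v).resolve_left (pow_ne_zero n h0)
    rw [FLTA.Curves.ord_pow] at h
    have e : (Finsupp.single B.infk ((n * m : ℕ) : ℤ)) v =
        (n : ℤ) * (Finsupp.single B.infk (m : ℤ)) v := by
      classical
      rw [Finsupp.single_apply, Finsupp.single_apply]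
      split_ifs <;> simp
    rw [e, ← mul_neg] at h
    exact le_of_mul_le_mul_left h (by exact_mod_cast hn)
  refine ⟨hy1, fun Q => ?_⟩
  rw [← placeVal_pow (B.rrk.deg_eq_one _) (mem_of_mem_single (hy1 0) (B.pts_ne hS Q).1),
    ← placeVal_pow (B.rrk.deg_eq_one _) (mem_of_mem_single (hy1 1) (B.pts_ne hS Q).2)]
  exact h2 Q Q.2

include hS in
/-- **The twist of a toric class.** -/
theorem exists_twist (hn : 0 < n) (hf : KummerFn n D f) (hD : Divisor.degree D = 0)
    (hm : Big S m₀ g gF m) :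
    ∃ ζ : S → k, (∀ Q, ζ Q ^ n = 1) ∧ d.Ysp = B.glued hS m ζ := by
  set M := d.Ysp.comap (B.pairsIncl m)
  have hYle : d.Ysp ≤ LinearMap.range (B.pairsIncl m) := fun y hy =>
    ⟨(⟨_, (d.mem_Ysp_values hS hn hf hm.fibre hy).1 0⟩, ⟨_, (d.mem_Ysp_values hS hn hf hm.fibre hy).1 1⟩),
      funext (Fin.forall_fin_two.mpr ⟨rfl, rfl⟩)⟩
  have hMY : M.map (B.pairsIncl m) = d.Ysp := Submodule.map_comap_eq_self hYle
  have := B.rrk.finiteDimensional (Finsupp.single B.infk (m : ℤ))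
  have hMdim : Module.finrank k M = Module.finrank k d.Ysp := by
    rw [← hMY]
    exact (Submodule.equivMapOfInjective _ (B.pairsIncl_injective m) M).finrank_eq
  have hY := d.finrank_Ysp hn hf hD hm.genus
  have hL := finrank_riemannRochSpace_single B.rrk (P := B.infk) (m := m)
    (by have := hm.eval; omega)
  have hcard := hS.card_eq
  obtain ⟨ζ, -, hζn, hM⟩ := exists_eq_glueSpace hn (one_ne_zero (α := k)) one_ne_zero
    (B.ev₁ hS m) (B.ev₀_surjective hS (by have := hm.eval; omega)) M (fun x hx Q => by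
      rw [one_mul, one_mul]
      exact (d.mem_Ysp_values hS hn hf hm.fibre hx).2 Q)
    (by rw [Fintype.card_coe]; omega)
  refine ⟨ζ, fun Q => by simpa using hζn Q, ?_⟩
  rw [← hMY, hM]
  rfl

end TwistData

end FLTA.BadRed.BadFibre
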